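import Mathlib
import Fermat.Prelude.Def_GaloisRep_Adic
import Fermat.Prelude.Def_GaloisRep_Residual
import Fermat.Prelude.Def_EllipticCurve_FrobeniusTrace
import Fermat.Statements.S35
import Fermat.Prelude.Def_CuspForm_HeckeGaloisRepDatum
import Fermat.Prelude.Def_CuspForm_Newforms
import Fermat.Prelude.Def_GaloisRep_LocalConditions
import Fermat.Prelude.Def_WeierstrassCurve_ConductorLevel
import Fermat.Prelude.Def_FLTPrelim_ModularRep
import Fermat.Prelude.Def_CuspForm_HeckeAlgebra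
import Fermat.Prelude.Def_FLTPrelim_Modularity
import Fermat.Agent.MUL.Lib.MultRed.Main
import Fermat.Agent.MUL.R38.S.Final
import Fermat.Agent.MUL.R38.G.SpJG3
import Fermat.Agent.MUL.S35.AssemblyNew
import Fermat.Agent.MUL.Lib.BadRed.Final.FrobKey
import Fermat.Agent.MUL.Lib.TraceRigidity.Density
import Fermat.Agent.MUL.Lib.Cyclo.CharData
import Fermat.Agent.MUL.S35.SMO.Core
import Fermat.Agent.MUL.F3.FrobDensityLiteFinal
import Fermat.Agent.MUL.Lib.BadRed.Mod.UCuspDegFinal
import Fermat.Agent.MUL.Orig.S23.MF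
import Fermat.Agent.MUL.S22
import Fermat.Agent.MUL.R38.G.SpJG1
import Fermat.Agent.MUL.S35.SMO.Point
import Fermat.Agent.MUL.Orig.Lib.Frobenius.Exists
import Fermat.Agent.MUL.S36.HPVal.DistFinalWire

section MergeWrap_Lib_MultRed_Tate -- from Lib/MultRed/Tate.lean

/-!
# MultRed / Tate (MR4): the Tate module of a curve with multiplicative reduction at `q ≠ p`
has unipotent inertia at `q` (`p` odd).
-/

set_option autoImplicit false

open WeierstrassCurve WeierstrassCurve.Affine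

namespace Fermat.Agent.MultRed

/-- pointwise form: `σ (σ y - y) = σ y - y` on `n`-torsion, `n` odd and prime to `q` -/
theorem inertia_smul_sub_eq (W : WeierstrassCurve ℤ) {q : ℕ} [Fact q.Prime] (hΔ : (q : ℤ) ∣ W.Δ)
    (hc₄ : ¬ (q : ℤ) ∣ W.c₄) [DecidableEq (AlgebraicClosure ℚ)]
    (A : ValuationSubring (AlgebraicClosure ℚ)) (hA : A.LiesOverPrime q)
    (σ : AlgebraicClosure ℚ ≃ₐ[ℚ] AlgebraicClosure ℚ) (hσ : σ ∈ A.inertiaSubgroupIn ℚ)
    {n : ℕ} (hn : Odd n) (hqn : ¬ q ∣ n)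
    (P : ((W.map (Int.castRingHom ℚ))⁄(AlgebraicClosure ℚ)).Point) (hP : n • P = 0) :
    σ • (σ • P - P) = σ • P - P := by
  have h := inertia_unipotent W hΔ hc₄ A hA σ hσ hn hqn P hP
  rw [smul_sub, ← sub_eq_zero]
  rw [← h]
  abel

/-- **MR4**: for `p` odd and `q ≠ p` a prime of multiplicative reduction of `W`, the `p`-adic Tate
module of `W` is unipotent on inertia at `q`. -/
theorem tateRep_isUnipotentOnInertiaAt_of_mult (W : WeierstrassCurve ℤ) {p q : ℕ} [Fact p.Prime]
    [Fact q.Prime] (hp2 : p ≠ 2) (hqp : q ≠ p)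
    (hΔ0 : (W.map (Int.castRingHom ℚ)).Δ ≠ 0) (hΔ : (q : ℤ) ∣ W.Δ) (hc₄ : ¬ (q : ℤ) ∣ W.c₄)
    [DecidableEq (AlgebraicClosure ℚ)] :
    (Fermat.Agent.TateModule.tateRep (W.map (Int.castRingHom ℚ)) p hΔ0).IsUnipotentOnInertiaAt
      q := by
  have hp : p.Prime := Fact.out
  have hq : q.Prime := Fact.out
  refine Fermat.Agent.TateModule.tateRep_isUnipotentOnInertiaAt_of_fix hΔ0 q ?_
  intro A hA σ hσ n y hy
  have hodd : Odd (p ^ n) := (hp.odd_of_ne_two hp2).pow
  have hqn : ¬ q ∣ p ^ n := by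
    intro h
    exact hqp ((Nat.prime_dvd_prime_iff_eq hq hp).mp (hq.dvd_of_dvd_pow h))
  exact inertia_smul_sub_eq W hΔ hc₄ A hA σ hσ hodd hqn y hy

/-- semistable form: unipotent inertia at every bad prime `q ≠ p`. -/
theorem tateRep_isUnipotentOnInertiaAt_of_semistable (W : WeierstrassCurve ℤ)
    (hss : ∀ q : ℕ, q.Prime → (q : ℤ) ∣ W.Δ → ¬ (q : ℤ) ∣ W.c₄) {p : ℕ} [Fact p.Prime]
    (hp2 : p ≠ 2) (hΔ0 : (W.map (Int.castRingHom ℚ)).Δ ≠ 0)
    [DecidableEq (AlgebraicClosure ℚ)] {q : ℕ} (hq : q.Prime) (hqp : q ≠ p)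
    (hΔ : (q : ℤ) ∣ W.Δ) :
    (Fermat.Agent.TateModule.tateRep (W.map (Int.castRingHom ℚ)) p hΔ0).IsUnipotentOnInertiaAt
      q := by
  haveI : Fact q.Prime := ⟨hq⟩
  exact tateRep_isUnipotentOnInertiaAt_of_mult W hp2 hqp hΔ0 hΔ (hss q hq hΔ)

end Fermat.Agent.MultRed
end MergeWrap_Lib_MultRed_Tate

section MergeWrap_Lib_TateModule_ReductionTensor -- from Lib/TateModule/ReductionTensor.lean

set_option autoImplicit false
set_option linter.unusedSectionVars false

/-!
# A reduction map identifies the base change with the target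

`h : IsReduction φ π` (`φ : O →+* R`, `π : T →+ V`, `T` finite free over `O`), `B` an `O`-algebra
with a ring isomorphism `β : B ≃+* R` such that `β ∘ algebraMap = φ`.  Then
`B ⊗[O] T ≃+ V`, `c ⊗ x ↦ β c • π x`, compatibly with scalars and with base-changed
endomorphisms.
-/

noncomputable section

namespace Fermat.Agent.TateModule

open Module
open scoped TensorProduct

variable {O R : Type*} [CommRing O] [CommRing R] {φ : O →+* R}
  {T V : Type*} [AddCommGroup T] [Module O T] [AddCommGroup V] [Module R V] {π : T →+ V}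
  [Module.Free O T] [Module.Finite O T]
  {B : Type*} [CommRing B] [Algebra O B]

namespace IsReduction

variable (h : IsReduction φ π) (β : B ≃+* R)

/-- The identification `B ⊗[O] T ≃+ V` attached to a reduction map. -/
def tensorEquiv : B ⊗[O] T ≃+ V :=
  (((Module.Free.chooseBasis O T).baseChange B).repr.toAddEquiv.trans
    (Finsupp.mapRange.addEquiv (ι := Module.Free.ChooseBasisIndex O T) β.toAddEquiv)).trans
    (h.basis (Module.Free.chooseBasis O T)).repr.symm.toAddEquiv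

theorem repr_tensorEquiv (z : B ⊗[O] T) (i : Module.Free.ChooseBasisIndex O T) :
    (h.basis (Module.Free.chooseBasis O T)).repr (h.tensorEquiv β z) i =
      β (((Module.Free.chooseBasis O T).baseChange B).repr z i) := by
  simp [tensorEquiv]

theorem tensorEquiv_ext {v w : V}
    (hvw : ∀ i, (h.basis (Module.Free.chooseBasis O T)).repr v i =
      (h.basis (Module.Free.chooseBasis O T)).repr w i) : v = w :=
  (h.basis (Module.Free.chooseBasis O T)).repr.injective (Finsupp.ext hvw)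

variable (hβ : ∀ a : O, β (algebraMap O B a) = φ a)
include hβ

theorem tensorEquiv_tmul (c : B) (x : T) : h.tensorEquiv β (c ⊗ₜ[O] x) = β c • π x := by
  refine h.tensorEquiv_ext fun i => ?_
  have h1 : (h.basis (Module.Free.chooseBasis O T)).repr (β c • π x) i =
      β c * φ ((Module.Free.chooseBasis O T).repr x i) := by
    rw [LinearEquiv.map_smul, Finsupp.smul_apply, h.basis_repr, smul_eq_mul]
  rw [repr_tensorEquiv, Basis.baseChange_repr_tmul, Algebra.smul_def, map_mul, hβ, h1, mul_comm]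

omit hβ in
theorem tensorEquiv_smul (c : B) (z : B ⊗[O] T) :
    h.tensorEquiv β (c • z) = β c • h.tensorEquiv β z := by
  refine h.tensorEquiv_ext fun i => ?_
  have h1 : (h.basis (Module.Free.chooseBasis O T)).repr (β c • h.tensorEquiv β z) i =
      β c * β (((Module.Free.chooseBasis O T).baseChange B).repr z i) := by
    rw [LinearEquiv.map_smul, Finsupp.smul_apply, repr_tensorEquiv, smul_eq_mul]
  have h2 : ((Module.Free.chooseBasis O T).baseChange B).repr (c • z) i =
      c * ((Module.Free.chooseBasis O T).baseChange B).repr z i := by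
    rw [LinearEquiv.map_smul, Finsupp.smul_apply, smul_eq_mul]
  rw [repr_tensorEquiv, h2, map_mul, h1]

theorem tensorEquiv_one_tmul (x : T) : h.tensorEquiv β ((1 : B) ⊗ₜ[O] x) = π x := by
  rw [h.tensorEquiv_tmul β hβ, map_one, one_smul]

/-- Compatibility with endomorphisms. -/
theorem tensorEquiv_baseChange (f : T →ₗ[O] T) (g : V →ₗ[R] V) (hfg : ∀ x, π (f x) = g (π x))
    (z : B ⊗[O] T) : h.tensorEquiv β (f.baseChange B z) = g (h.tensorEquiv β z) := by
  induction z using TensorProduct.induction_on with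
  | zero => simp
  | tmul c x =>
    rw [LinearMap.baseChange_tmul, h.tensorEquiv_tmul β hβ, h.tensorEquiv_tmul β hβ, hfg,
      map_smul]
  | add x y hx hy => rw [map_add, map_add, map_add, map_add, hx, hy]

end IsReduction

end Fermat.Agent.TateModule
end
end MergeWrap_Lib_TateModule_ReductionTensor

section MergeWrap_Lib_TateModule_Residual -- from Lib/TateModule/Residual.lean

set_option autoImplicit false
set_option linter.unusedSectionVars false
set_option linter.style.haveILetI false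

/-!
# The residual representation of the Tate module is `E[p]`

* `tateRedOne p J : tateSeq p J →+ J[p]` (first entry), a reduction map along `PadicInt.toZMod`;
* `tateResidualEquiv hΔ : (tateRep E p hΔ).residual.V ≃+ E[p]`, semilinear along
  `PadicInt.residueField : ResidueField ℤ_[p] ≃+* ZMod p` and Galois equivariant;
* `tateRep_residual_isIrreducible`: if `E[p]` is irreducible (Prelude `GaloisRepIsIrreducible`)
  then the residual representation of the Tate module is irreducible.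
-/

noncomputable section

namespace Fermat.Agent.TateModule

open WeierstrassCurve WeierstrassCurve.Affine WeierstrassCurve.Affine.Point Polynomial
open IsLocalRing
open scoped WeierstrassCurve.Affine TensorProduct

local notation "Qbar" => AlgebraicClosure ℚ
local notation "GQ" => (AlgebraicClosure ℚ ≃ₐ[ℚ] AlgebraicClosure ℚ)

section Abstract

variable (p : ℕ) [hp : Fact p.Prime] (J : Type*) [AddCommGroup J]

/-- The first entry of a compatible sequence, as a `p`-torsion element. -/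
def tateRedOne : tateSeq p J →+ Submodule.torsionBy ℤ J ((p : ℕ) : ℤ) where
  toFun x := ⟨x.1 1, by
    rw [Submodule.mem_torsionBy_iff, natCast_zsmul]
    have := tateSeq_pow_smul_self x 1
    rwa [pow_one] at this⟩
  map_zero' := rfl
  map_add' _ _ := rfl

variable {p J}

@[simp] theorem tateRedOne_coe (x : tateSeq p J) : ((tateRedOne p J x : _) : J) = x.1 1 := rfl

theorem toZMod_eq_appr_one (c : ℤ_[p]) : PadicInt.toZMod c = ((c.appr 1 : ℕ) : ZMod p) := by
  have h1 := PadicInt.appr_spec 1 c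
  rw [pow_one, ← PadicInt.maximalIdeal_eq_span_p, ← PadicInt.ker_toZMod, RingHom.mem_ker,
    map_sub, map_natCast, sub_eq_zero] at h1
  exact h1

theorem tateRedOne_smul [Module (ZMod p) (Submodule.torsionBy ℤ J ((p : ℕ) : ℤ))]
    (c : ℤ_[p]) (x : tateSeq p J) :
    tateRedOne p J (c • x) = PadicInt.toZMod c • tateRedOne p J x := by
  rw [toZMod_eq_appr_one, Nat.cast_smul_eq_nsmul]
  rfl

theorem tateRedOne_isReduction (hdiv : ∀ y : J, ∃ z : J, p • z = y)
    [Module (ZMod p) (Submodule.torsionBy ℤ J ((p : ℕ) : ℤ))] :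
    IsReduction (PadicInt.toZMod (p := p)) (tateRedOne p J) where
  surj_ring := ZMod.ringHom_surjective _
  surj := by
    rintro ⟨a, ha⟩
    have ha' : a ∈ Submodule.torsionBy ℤ J ((p ^ 1 : ℕ) : ℤ) := by
      rw [pow_one]; exact ha
    obtain ⟨x, hx⟩ := tateRed_surjective hdiv 1 ⟨a, ha'⟩
    refine ⟨x, Subtype.ext ?_⟩
    have := congrArg Subtype.val hx
    exact this
  semilinear := tateRedOne_smul
  ker_le x hx := by
    have hx1 : x.1 1 = 0 := congrArg Subtype.val hx
    obtain ⟨y, rfl⟩ := tateSeq_exists_eq_pow_smul x hx1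
    refine Submodule.smul_mem_smul ?_ Submodule.mem_top
    rw [pow_one, PadicInt.ker_toZMod, PadicInt.maximalIdeal_eq_span_p]
    exact Ideal.subset_span rfl

end Abstract

variable {E : WeierstrassCurve ℚ} {p : ℕ} [hp : Fact p.Prime] [DecidableEq Qbar]

theorem tateRep_isReductionOne (hΔ : E.Δ ≠ 0) :
    IsReduction (PadicInt.toZMod (p := p)) (tateRedOne p (E⁄Qbar).Point) :=
  tateRedOne_isReduction (p_divisible p hΔ)

theorem tateRep_redOne_smul (hΔ : E.Δ ≠ 0) (σ : GQ) (x : (tateRep E p hΔ).V) :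
    tateRedOne p (E⁄Qbar).Point ((tateRep E p hΔ).ρ σ x) =
      galoisRepModuleEnd ℚ (K := Qbar) E p σ (tateRedOne p (E⁄Qbar).Point x) :=
  rfl

/-- The identification of the residual representation of the Tate module with `E[p]`. -/
def tateResidualEquiv (hΔ : E.Δ ≠ 0) :
    (tateRep E p hΔ).residual.V ≃+ Submodule.torsionBy ℤ (E⁄Qbar).Point ((p : ℕ) : ℤ) :=
  haveI : Module.Free ℤ_[p] (tateSeq p (E⁄Qbar).Point) := (tateRep E p hΔ).instFree
  haveI : Module.Finite ℤ_[p] (tateSeq p (E⁄Qbar).Point) := (tateRep E p hΔ).instFinite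
  (tateRep_isReductionOne hΔ).tensorEquiv (B := ResidueField ℤ_[p]) PadicInt.residueField

theorem residueField_algebraMap (a : ℤ_[p]) :
    PadicInt.residueField (algebraMap ℤ_[p] (ResidueField ℤ_[p]) a) = PadicInt.toZMod a := rfl

theorem tateResidualEquiv_tmul (hΔ : E.Δ ≠ 0) (c : ResidueField ℤ_[p])
    (x : tateSeq p (E⁄Qbar).Point) :
    tateResidualEquiv hΔ (c ⊗ₜ[ℤ_[p]] x) =
      PadicInt.residueField c • tateRedOne p (E⁄Qbar).Point x := by
  haveI : Module.Free ℤ_[p] (tateSeq p (E⁄Qbar).Point) := (tateRep E p hΔ).instFree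
  haveI : Module.Finite ℤ_[p] (tateSeq p (E⁄Qbar).Point) := (tateRep E p hΔ).instFinite
  exact (tateRep_isReductionOne hΔ).tensorEquiv_tmul PadicInt.residueField
    residueField_algebraMap c x

theorem tateResidualEquiv_smul (hΔ : E.Δ ≠ 0) (c : ResidueField ℤ_[p])
    (v : (tateRep E p hΔ).residual.V) :
    tateResidualEquiv hΔ (c • v) = PadicInt.residueField c • tateResidualEquiv hΔ v := by
  haveI : Module.Free ℤ_[p] (tateSeq p (E⁄Qbar).Point) := (tateRep E p hΔ).instFree
  haveI : Module.Finite ℤ_[p] (tateSeq p (E⁄Qbar).Point) := (tateRep E p hΔ).instFinite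
  exact (tateRep_isReductionOne hΔ).tensorEquiv_smul PadicInt.residueField c v

/-- Galois equivariance. -/
theorem tateResidualEquiv_ρ (hΔ : E.Δ ≠ 0) (σ : GQ) (v : (tateRep E p hΔ).residual.V) :
    tateResidualEquiv hΔ ((tateRep E p hΔ).residual.ρ σ v) =
      galoisRepModuleEnd ℚ (K := Qbar) E p σ (tateResidualEquiv hΔ v) := by
  haveI : Module.Free ℤ_[p] (tateSeq p (E⁄Qbar).Point) := (tateRep E p hΔ).instFree
  haveI : Module.Finite ℤ_[p] (tateSeq p (E⁄Qbar).Point) := (tateRep E p hΔ).instFinite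
  exact (tateRep_isReductionOne hΔ).tensorEquiv_baseChange PadicInt.residueField
    residueField_algebraMap ((tateRep E p hΔ).ρ σ) (galoisRepModuleEnd ℚ (K := Qbar) E p σ)
    (tateRep_redOne_smul hΔ σ) v

theorem tateResidualEquiv_ρ_smul (hΔ : E.Δ ≠ 0) (σ : GQ) (v : (tateRep E p hΔ).residual.V) :
    tateResidualEquiv hΔ ((tateRep E p hΔ).residual.ρ σ v) = σ • tateResidualEquiv hΔ v :=
  tateResidualEquiv_ρ hΔ σ v

/-- If `E[p]` is an irreducible Galois module, the residual representation of the Tate module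
is irreducible. -/
theorem tateRep_residual_isIrreducible (hΔ : E.Δ ≠ 0)
    (hirr : GaloisRepIsIrreducible (K := Qbar) ℚ E p) :
    (tateRep E p hΔ).residual.IsIrreducible := by
  intro W hW
  let e := tateResidualEquiv (p := p) hΔ
  let N : Submodule (ZMod p) (Submodule.torsionBy ℤ (E⁄Qbar).Point ((p : ℕ) : ℤ)) :=
    { carrier := e '' (W : Set (tateRep E p hΔ).residual.V)
      add_mem' := by
        rintro _ _ ⟨a, ha, rfl⟩ ⟨b, hb, rfl⟩
        exact ⟨a + b, W.add_mem ha hb, map_add e a b⟩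
      zero_mem' := ⟨0, W.zero_mem, map_zero e⟩
      smul_mem' := by
        rintro r _ ⟨a, ha, rfl⟩
        refine ⟨PadicInt.residueField.symm r • a, W.smul_mem _ ha, ?_⟩
        rw [tateResidualEquiv_smul, RingEquiv.apply_symm_apply] }
  have hN : IsGaloisStable (K := Qbar) ℚ N := by
    rintro σ _ ⟨a, ha, rfl⟩
    exact ⟨(tateRep E p hΔ).residual.ρ σ a, hW σ a ha, tateResidualEquiv_ρ_smul hΔ σ a⟩
  rcases hirr.2 N hN with h | h
  · left
    rw [eq_bot_iff]
    intro w hw
    have h1 : e w ∈ N := ⟨w, hw, rfl⟩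
    rw [h, Submodule.mem_bot] at h1
    rw [Submodule.mem_bot]
    exact (map_eq_zero_iff e e.injective).mp h1
  · right
    rw [eq_top_iff]
    intro v _
    have h1 : e v ∈ N := by rw [h]; exact Submodule.mem_top
    obtain ⟨w, hw, hwv⟩ := h1
    rw [← e.injective hwv]
    exact hw

end Fermat.Agent.TateModule
end
end MergeWrap_Lib_TateModule_Residual

section MergeWrap_Lib_TateModule_ModelResidual -- from Lib/TateModule/ModelResidual.lean

set_option autoImplicit false
set_option linter.unusedSectionVars false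
set_option linter.style.haveILetI false

/-!
# The residual representation of the Tate module of an integral model

`W : WeierstrassCurve ℤ`, `Δ ≠ 0`, `p` prime, `ρ = tateRepOfModel W p hΔ`:

* `tateRepOfModel_det_complexConjugation`: `det ρ(c) = -1`;
* `tateRepOfModel_residual_det_complexConjugation`: `det ρ̄(c) = -1`;
* `tateRepOfModel_residual_isIrreducible`: `ρ̄` is irreducible if `W.ModRepIsIrreducible p`;
* `tateRepOfModel_residual_isAbsolutelyIrreducible` (`p` odd);
* `tateRepOfModel_residual_isUnramifiedAt`: `ρ̄` unramified at good `q ≠ p`.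
-/

noncomputable section

namespace Fermat.Agent.TateModule

open WeierstrassCurve WeierstrassCurve.Affine WeierstrassCurve.Affine.Point Polynomial
open IsLocalRing
open scoped WeierstrassCurve.Affine TensorProduct

local notation "Qbar" => AlgebraicClosure ℚ
local notation "GQ" => (AlgebraicClosure ℚ ≃ₐ[ℚ] AlgebraicClosure ℚ)

section General

variable {A : Type} [CommRing A] [IsLocalRing A]

/-- The determinant of the residual representation is the residue of the determinant. -/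
theorem residual_det (ρ : GaloisRepAdic A) (σ : GQ) :
    LinearMap.det (ρ.residual.ρ σ) = residue A (LinearMap.det (ρ.ρ σ)) := by
  show LinearMap.det ((ρ.ρ σ).baseChange (ResidueField A)) = _
  rw [LinearMap.det_baseChange]
  rfl

/-- The residual representation of an unramified representation is unramified. -/
theorem residual_isUnramifiedAt (ρ : GaloisRepAdic A) {q : ℕ} (h : ρ.IsUnramifiedAt q) :
    ρ.residual.IsUnramifiedAt q := by
  intro P hP σ hσ
  show (ρ.ρ σ).baseChange (ResidueField A) = 1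
  rw [h P hP σ hσ, LinearMap.baseChange_one]

end General

variable {W : WeierstrassCurve ℤ} {p : ℕ} [hp : Fact p.Prime] [DecidableEq Qbar]

/-- **Oddness**: complex conjugation has determinant `-1` on the Tate module. -/
theorem tateRepOfModel_det_complexConjugation (hΔ : W.Δ ≠ 0) :
    LinearMap.det ((tateRepOfModel W p hΔ).ρ complexConjugation) = -1 :=
  tateRep_det_eq (map_Δ_ne_zero_of_model hΔ) complexConjugation (-1) fun n => by
    rw [Fermat.Agent.FrobTrace.galois_det_complexConjugation W hΔ n, map_neg, map_one]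

theorem tateRepOfModel_residual_det_complexConjugation (hΔ : W.Δ ≠ 0) :
    LinearMap.det ((tateRepOfModel W p hΔ).residual.ρ complexConjugation) = -1 := by
  rw [residual_det, tateRepOfModel_det_complexConjugation, map_neg, map_one]

theorem tateRepOfModel_residual_isIrreducible (hΔ : W.Δ ≠ 0)
    (hirr : GaloisRepIsIrreducible (K := Qbar) ℚ (W.map (Int.castRingHom ℚ)) p) :
    (tateRepOfModel W p hΔ).residual.IsIrreducible :=
  tateRep_residual_isIrreducible (map_Δ_ne_zero_of_model hΔ) hirr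

theorem two_ne_zero_residueField (hp2 : p ≠ 2) : (2 : ResidueField ℤ_[p]) ≠ 0 := by
  intro h
  have h1 : PadicInt.residueField (2 : ResidueField ℤ_[p]) = 0 := by rw [h, _root_.map_zero]
  rw [map_ofNat] at h1
  have h2 : ((2 : ℕ) : ZMod p) = 0 := by exact_mod_cast h1
  rw [ZMod.natCast_eq_zero_iff] at h2
  exact hp2 ((Nat.prime_dvd_prime_iff_eq hp.out Nat.prime_two).mp h2)

/-- **Absolute irreducibility** of the residual representation (`p` odd). -/
theorem tateRepOfModel_residual_isAbsolutelyIrreducible (hΔ : W.Δ ≠ 0) (hp2 : p ≠ 2)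
    (hirr : GaloisRepIsIrreducible (K := Qbar) ℚ (W.map (Int.castRingHom ℚ)) p) :
    (tateRepOfModel W p hΔ).residual.IsAbsolutelyIrreducible :=
  Fermat.Agent.S59.isAbsolutelyIrreducible_of_det_conj (two_ne_zero_residueField hp2) _
    (tateRepOfModel_residual_isIrreducible hΔ hirr)
    (tateRepOfModel_residual_det_complexConjugation hΔ)

theorem tateRepOfModel_residual_isUnramifiedAt (hΔ : W.Δ ≠ 0) {q : ℕ} (hq : q.Prime)
    (hqp : q ≠ p) (hgood : W.IsGoodPrimeFor q) :
    (tateRepOfModel W p hΔ).residual.IsUnramifiedAt q :=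
  residual_isUnramifiedAt _ (tateRepOfModel_isUnramifiedAt hΔ hq hqp hgood)

end Fermat.Agent.TateModule
end
end MergeWrap_Lib_TateModule_ModelResidual

section MergeWrap_S35 -- from S35.lean


set_option autoImplicit false
set_option autoImplicit false
open Polynomial
open CuspForm CuspForm.IsNewform

namespace Fermat.Agent.S35

theorem result
    {M : ℕ} [NeZero M] {g : CuspForm (CongruenceSubgroup.Gamma0 M) 2} (hg : g.IsNewform)
    (lam : ℕ) [Fact lam.Prime]
    (S : Finset ℕ)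
    (O' : Type) [CommRing O'] [IsDomain O'] [IsDiscreteValuationRing O']
    [IsAdicComplete (IsLocalRing.maximalIdeal O') O'] [Finite (IsLocalRing.ResidueField O')]
    [CharZero O'] (hlamO' : (lam : O') ∈ IsLocalRing.maximalIdeal O')
    (chig : CuspForm.heckeAlgebra M 2 (↑S : Set ℕ) →+* ℂ)
    (hchig : ∀ (ℓ : ℕ) (hℓ : ℓ.Prime) (hℓM : ¬ ℓ ∣ M) (hℓS : ℓ ∉ (↑S : Set ℕ)),
      chig (CuspForm.heckeAlgebra.T hℓ hℓM hℓS) = ModularFormClass.qCoeff g ℓ)
    (iota : chig.range →+* O')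
    (hlamS : lam ∈ S) (hMS : ∀ q : ℕ, q.Prime → q ∣ M → q ∈ S)
    :
    ∃ (O'' : Type) (_ : CommRing O'') (_ : IsDomain O'') (_ : IsDiscreteValuationRing O'')
      (_ : IsAdicComplete (IsLocalRing.maximalIdeal O'') O'') (_ : Finite (IsLocalRing.ResidueField O''))
      (_ : CharZero O'') (_ : Algebra O' O'') (_ : Module.Finite O' O'') (_ : IsLocalHom (algebraMap O' O'')),
      Function.Injective (algebraMap O' O'') ∧
      ∃ ρ : GaloisRepAdic O'',
        (∀ (ℓ : ℕ) (hℓ : ℓ.Prime) (hℓM : ¬ ℓ ∣ M) (hℓS : ℓ ∉ (↑S : Set ℕ)),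
          ∀ A : ValuationSubring (AlgebraicClosure ℚ), A.LiesOverPrime ℓ →
            ∀ σ : AlgebraicClosure ℚ ≃ₐ[ℚ] AlgebraicClosure ℚ, A.IsFrobeniusAt σ ℓ →
              LinearMap.charpoly (ρ.ρ σ) =
                X ^ 2 - C (algebraMap O' O'' ((iota.comp chig.rangeRestrict) (CuspForm.heckeAlgebra.T hℓ hℓM hℓS))) * X
                  + C ((ℓ : O''))) ∧
        (∀ q : ℕ, q.Prime → q ≠ lam → q ∣ M → ¬ q ^ 2 ∣ M →
          ∀ A : ValuationSubring (AlgebraicClosure ℚ), A.LiesOverPrime q →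
            ∀ σ : AlgebraicClosure ℚ ≃ₐ[ℚ] AlgebraicClosure ℚ, A.IsFrobeniusAt σ q →
              LinearMap.charpoly (ρ.ρ σ) = X ^ 2 - C ((q : O'') + 1) * X + C ((q : O'')) ∨
              LinearMap.charpoly (ρ.ρ σ) = X ^ 2 + C ((q : O'') + 1) * X + C ((q : O''))) :=
  Fermat.Agent.S35.s35Statement_of_key
    (fun D h => Fermat.Agent.BadRed.frobToricKeyAt_of_auxOK D h)
    hg lam S O' hlamO' chig hchig iota hlamS hMS

end Fermat.Agent.S35
end MergeWrap_S35

section MergeWrap_S58_Defs -- from S58/Defs.lean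

/-!
# S58 (conductor-level matching): the statement of S36 as a proposition

`Fermat.Agent.S58.S36Statement` is the frozen statement S36 (Carayol at `q² ∥ M`), verbatim, as a
`Prop`.  `S58/Reduction.lean` proves the frozen S58 from it; the final `S58.lean` plugs in
`Fermat.Agent.S36.result`.
-/

set_option autoImplicit false
open Polynomial

namespace Fermat.Agent.S58

/-- The frozen statement S36, as a proposition. -/
def S36Statement : Prop :=
  ∀ {M : ℕ} [NeZero M] {g : CuspForm (CongruenceSubgroup.Gamma0 M) 2} (_hg : g.IsNewform)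
    (lam : ℕ) [Fact lam.Prime]
    (S : Finset ℕ)
    (O' : Type) [CommRing O'] [IsDomain O'] [IsDiscreteValuationRing O']
    [IsAdicComplete (IsLocalRing.maximalIdeal O') O'] [Finite (IsLocalRing.ResidueField O')]
    [CharZero O'] (_hlamO' : (lam : O') ∈ IsLocalRing.maximalIdeal O')
    (_hlam2 : lam ≠ 2)
    (chig : CuspForm.heckeAlgebra M 2 (↑S : Set ℕ) →+* ℂ)
    (_hchig : ∀ (ℓ : ℕ) (hℓ : ℓ.Prime) (hℓM : ¬ ℓ ∣ M) (hℓS : ℓ ∉ (↑S : Set ℕ)),
      chig (CuspForm.heckeAlgebra.T hℓ hℓM hℓS) = ModularFormClass.qCoeff g ℓ)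
    (iota : chig.range →+* O')
    (_hlamS : lam ∈ S) (_hMS : ∀ q : ℕ, q.Prime → q ∣ M → q ∈ S)
    (_hres : ∀ (O'' : Type) [CommRing O''] [IsDomain O''] [IsDiscreteValuationRing O'']
      [IsAdicComplete (IsLocalRing.maximalIdeal O'') O''] [Finite (IsLocalRing.ResidueField O'')] [CharZero O'']
      [Algebra O' O''] [Module.Finite O' O''] [IsLocalHom (algebraMap O' O'')],
      Function.Injective (algebraMap O' O'') → ∀ (ρ : GaloisRepAdic O''),
      (∀ (ℓ : ℕ) (hℓ : ℓ.Prime) (_hℓlam : ℓ ≠ lam) (hℓM : ¬ ℓ ∣ M) (hℓS : ℓ ∉ (↑S : Set ℕ)),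
        ∀ A : ValuationSubring (AlgebraicClosure ℚ), A.LiesOverPrime ℓ →
          ∀ σ : AlgebraicClosure ℚ ≃ₐ[ℚ] AlgebraicClosure ℚ, A.IsFrobeniusAt σ ℓ →
            LinearMap.charpoly (ρ.ρ σ) =
              X ^ 2 - C (algebraMap O' O'' ((iota.comp chig.rangeRestrict) (CuspForm.heckeAlgebra.T hℓ hℓM hℓS))) * X
                + C ((ℓ : O'')))
      → ρ.residual.IsAbsolutelyIrreducible ∧ ρ.residual.IsOdd),
    ∃ (O'' : Type) (_ : CommRing O'') (_ : IsDomain O'') (_ : IsDiscreteValuationRing O'')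
      (_ : IsAdicComplete (IsLocalRing.maximalIdeal O'') O'') (_ : Finite (IsLocalRing.ResidueField O''))
      (_ : CharZero O'') (_ : Algebra O' O'') (_ : Module.Finite O' O'') (_ : IsLocalHom (algebraMap O' O'')),
      Function.Injective (algebraMap O' O'') ∧
      ∃ ρ : GaloisRepAdic O'',
        (∀ (ℓ : ℕ) (hℓ : ℓ.Prime) (hℓM : ¬ ℓ ∣ M) (hℓS : ℓ ∉ (↑S : Set ℕ)),
          ∀ A : ValuationSubring (AlgebraicClosure ℚ), A.LiesOverPrime ℓ →
            ∀ σ : AlgebraicClosure ℚ ≃ₐ[ℚ] AlgebraicClosure ℚ, A.IsFrobeniusAt σ ℓ →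
              LinearMap.charpoly (ρ.ρ σ) =
                X ^ 2 - C (algebraMap O' O'' ((iota.comp chig.rangeRestrict) (CuspForm.heckeAlgebra.T hℓ hℓM hℓS))) * X
                  + C ((ℓ : O''))) ∧
        (∀ q : ℕ, q.Prime → q ≠ lam → M.factorization q = 2 → ¬ ρ.IsUnipotentOnInertiaAt q)

/-- The frozen statement S58, as a proposition. -/
def S58Statement : Prop :=
  ∀ (W : WeierstrassCurve ℤ) (_hss : W.IsSemistableModel) (N : ℕ)
    (p : ℕ) [Fact p.Prime] (_hp2 : p ≠ 2) (_hirr : W.ModRepIsIrreducible p)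
    (_hp2N : ¬ p ^ 2 ∣ N)
    (_hN : W.IsModularModelOfLevel N) (_hbad : ∀ ℓ : ℕ, ℓ.Prime → (ℓ : ℤ) ∣ W.Δ → ℓ ∣ N)
    (_hN3 : ∀ q : ℕ, q.Prime → ¬ q ^ 3 ∣ N),
    W.IsModularModelOfLevel W.conductorLevel

end Fermat.Agent.S58
end MergeWrap_S58_Defs

section MergeWrap_S58_Descent -- from S58/Descent.lean

/-!
# S58, step 1: descent to a newform

A normalised eigenform `g₀` of level `N ≠ 0` has a companion newform (Prelude sense) `h` of some
level `M ∣ N` with `a_ℓ(h) = a_ℓ(g₀)` for all primes `ℓ ∤ N`.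
-/

set_option autoImplicit false

namespace Fermat.Agent.S58

open CuspForm ModularFormClass

/-- **Descent to a newform.** -/
theorem exists_newform_dvd {N : ℕ} (hN : N ≠ 0)
    (g₀ : CuspForm (CongruenceSubgroup.Gamma0 N) 2) (hg₀ : g₀.IsNormalizedEigenform) :
    ∃ M : ℕ, M ∣ N ∧ ∃ h : CuspForm (CongruenceSubgroup.Gamma0 M) 2, h.IsNewform ∧
      ∀ ℓ : ℕ, ℓ.Prime → ¬ ℓ ∣ N → qCoeff h ℓ = qCoeff g₀ ℓ := by
  classical
  let P : ℕ → Prop := fun M => M ∣ N ∧ ∃ h : CuspForm (CongruenceSubgroup.Gamma0 M) 2,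
    h.IsNormalizedEigenform ∧ ∀ ℓ : ℕ, ℓ.Prime → ¬ ℓ ∣ N → qCoeff h ℓ = qCoeff g₀ ℓ
  have hex : ∃ M, P M := ⟨N, dvd_rfl, g₀, hg₀, fun _ _ _ => rfl⟩
  obtain ⟨hMN, h, hh, hag⟩ := Nat.find_spec hex
  refine ⟨Nat.find hex, hMN, h, ⟨hh, ?_⟩, hag⟩
  rintro M' hM' hne ⟨g', hg', hag'⟩
  have hM0 : Nat.find hex ≠ 0 := fun h0 => hN (Nat.eq_zero_of_zero_dvd (h0 ▸ hMN))
  have hlt : M' < Nat.find hex :=
    lt_of_le_of_ne (Nat.le_of_dvd (Nat.pos_of_ne_zero hM0) hM') hne
  refine Nat.find_min hex hlt ⟨hM'.trans hMN, g', hg', fun ℓ hℓ hℓN => ?_⟩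
  rw [hag' ℓ hℓ (fun hd => hℓN (hd.trans hMN)), hag ℓ hℓ hℓN]

end Fermat.Agent.S58
end MergeWrap_S58_Descent

section MergeWrap_S58_Invol -- from S58/Invol.lean

/-!
# S58, leaf H1 (helper38): an involution of `ℚ̄` inverts every root of unity

`Fermat.Agent.S58.involution_apply_root` : if `c : ℚ̄ ≃ₐ[ℚ] ℚ̄`, `c * c = 1`, `c ≠ 1` and `μ ^ n = 1`
(`0 < n`) then `c μ = μ⁻¹`.

This is the easy half of the Artin--Schreier theorem: the fixed field `F` of `c` does not contain
`√-1`, sums of squares of `F` are squares of `F`, hence `1 + u + ⋯ + u^(n-1) ≠ 0` for every norm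
`u = μ · c μ`.
-/

set_option autoImplicit false
set_option linter.unusedSectionVars false

namespace Fermat.Agent.S58

section Abstract

variable {C : Type*} [Field C] [IsAlgClosed C] [CharZero C]

/-- squares of fixed elements -/
def FixSq (c : C ≃+* C) (x : C) : Prop := ∃ r : C, c r = r ∧ r ^ 2 = x

variable (c : C ≃+* C)

theorem fixSq_zero : FixSq c 0 := ⟨0, map_zero c, by ring⟩

theorem fixSq_one : FixSq c 1 := ⟨1, map_one c, by ring⟩

theorem fixSq_mul {x y : C} (hx : FixSq c x) (hy : FixSq c y) : FixSq c (x * y) := by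
  obtain ⟨r, hr, rfl⟩ := hx
  obtain ⟨s, hs, rfl⟩ := hy
  exact ⟨r * s, by rw [map_mul, hr, hs], by ring⟩

theorem fixSq_pow {x : C} (hx : FixSq c x) (k : ℕ) : FixSq c (x ^ k) := by
  induction k with
  | zero => rw [pow_zero]; exact fixSq_one c
  | succ k ih => rw [pow_succ]; exact fixSq_mul c ih hx

variable {c}

/-- `c` moves a square root of `-1`. -/
theorem involution_apply_I (hc : ∀ x, c (c x) = x) (hc1 : ∃ a, c a ≠ a) {i : C}
    (hi : i ^ 2 = -1) : c i = -i := by
  have hci : c i ^ 2 = -1 := by rw [← map_pow, hi, map_neg, map_one]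
  have h2 : (c i - i) * (c i + i) = 0 := by ring_nf; rw [hci, hi]; ring
  rcases mul_eq_zero.mp h2 with h | h
  · exfalso
    have hfix : c i = i := sub_eq_zero.mp h
    obtain ⟨a, ha⟩ := hc1
    set d : C := a - c a with hd
    have hd0 : d ≠ 0 := fun h0 => ha (sub_eq_zero.mp h0).symm
    have hcd : c d = -d := by rw [hd, map_sub, hc]; ring
    obtain ⟨e, he⟩ := IsAlgClosed.exists_pow_nat_eq d (n := 2) (by norm_num)
    set ν : C := e * c e with hν
    have hcν : c ν = ν := by rw [hν, map_mul, hc]; ring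
    have hν2 : ν ^ 2 = -d ^ 2 := by
      have : ν ^ 2 = e ^ 2 * c (e ^ 2) := by rw [hν, map_pow]; ring
      rw [this, he, hcd]; ring
    have h3 : (ν - i * d) * (ν + i * d) = 0 := by
      have : (ν - i * d) * (ν + i * d) = ν ^ 2 - i ^ 2 * d ^ 2 := by ring
      rw [this, hν2, hi]; ring
    have hi0 : i ≠ 0 := by
      rintro rfl
      norm_num at hi
    rcases mul_eq_zero.mp h3 with h4 | h4
    · have h5 : ν = i * d := sub_eq_zero.mp h4
      have h6 := congrArg c h5
      rw [hcν, map_mul, hfix, hcd, h5] at h6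
      have h7 : i * d = 0 := by
        have : (2 : C) * (i * d) = 0 := by linear_combination h6
        rcases mul_eq_zero.mp this with h8 | h8
        · norm_num at h8
        · exact h8
      rcases mul_eq_zero.mp h7 with h8 | h8
      · exact hi0 h8
      · exact hd0 h8
    · have h5 : ν = -(i * d) := eq_neg_of_add_eq_zero_left h4
      have h6 := congrArg c h5
      rw [hcν, map_neg, map_mul, hfix, hcd, h5] at h6
      have h7 : i * d = 0 := by
        have : (2 : C) * (i * d) = 0 := by linear_combination -h6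
        rcases mul_eq_zero.mp this with h8 | h8
        · norm_num at h8
        · exact h8
      rcases mul_eq_zero.mp h7 with h8 | h8
      · exact hi0 h8
      · exact hd0 h8
  · exact eq_neg_of_add_eq_zero_left h

/-- `-1` is not a square of a fixed element. -/
theorem not_fixSq_neg_one (hc : ∀ x, c (c x) = x) (hc1 : ∃ a, c a ≠ a) : ¬ FixSq c (-1) := by
  rintro ⟨r, hr, hr2⟩
  have h := involution_apply_I hc hc1 hr2
  rw [hr] at h
  have h2 : (2 : C) * r = 0 := by linear_combination h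
  rcases mul_eq_zero.mp h2 with h3 | h3
  · norm_num at h3
  · rw [h3] at hr2
    norm_num at hr2

/-- the norm of any element is a square of a fixed element -/
theorem fixSq_norm (hc : ∀ x, c (c x) = x) (x : C) : FixSq c (x * c x) := by
  obtain ⟨w, hw⟩ := IsAlgClosed.exists_pow_nat_eq x (n := 2) (by norm_num)
  refine ⟨w * c w, by rw [map_mul, hc]; ring, ?_⟩
  rw [← hw, map_pow]; ring

/-- a sum of two squares of fixed elements is a square of a fixed element -/
theorem fixSq_add (hc : ∀ x, c (c x) = x) (hc1 : ∃ a, c a ≠ a) {x y : C} (hx : FixSq c x)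
    (hy : FixSq c y) : FixSq c (x + y) := by
  obtain ⟨r, hr, rfl⟩ := hx
  obtain ⟨s, hs, rfl⟩ := hy
  obtain ⟨i, hi⟩ := IsAlgClosed.exists_pow_nat_eq (-1 : C) (n := 2) (by norm_num)
  have hci := involution_apply_I hc hc1 hi
  have h := fixSq_norm hc (r + s * i)
  have h2 : (r + s * i) * c (r + s * i) = r ^ 2 + s ^ 2 := by
    rw [map_add, map_mul, hr, hs, hci]
    have : (r + s * i) * (r + s * -i) = r ^ 2 - s ^ 2 * i ^ 2 := by ring
    rw [this, hi]; ring
  rwa [h2] at h

theorem fixSq_sum (hc : ∀ x, c (c x) = x) (hc1 : ∃ a, c a ≠ a) {ι : Type*} (s : Finset ι)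
    (f : ι → C) (hf : ∀ j ∈ s, FixSq c (f j)) : FixSq c (∑ j ∈ s, f j) := by
  classical
  induction s using Finset.induction_on with
  | empty => rw [Finset.sum_empty]; exact fixSq_zero c
  | insert a s ha ih =>
    rw [Finset.sum_insert ha]
    exact fixSq_add hc hc1 (hf a (Finset.mem_insert_self a s))
      (ih fun j hj => hf j (Finset.mem_insert_of_mem hj))

/-- **An involution of an algebraically closed field of characteristic zero inverts the roots of
unity.** -/
theorem involution_apply_root_abstract (hc : ∀ x, c (c x) = x) (hc1 : ∃ a, c a ≠ a) {n : ℕ}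
    (hn : 0 < n) {μ : C} (hμ : μ ^ n = 1) : c μ = μ⁻¹ := by
  have hμ0 : μ ≠ 0 := by
    rintro rfl
    rw [zero_pow hn.ne'] at hμ
    exact zero_ne_one hμ
  set u : C := μ * c μ with hu
  have hun : u ^ n = 1 := by rw [hu, mul_pow, ← map_pow, hμ, map_one, mul_one]
  have huS : FixSq c u := fixSq_norm hc μ
  have hu1 : u = 1 := by
    by_contra hne
    obtain ⟨m, rfl⟩ : ∃ m, n = m + 1 := ⟨n - 1, by omega⟩
    have hgeom : (u - 1) * (∑ k ∈ Finset.range (m + 1), u ^ k) = 0 := by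
      rw [mul_comm, geom_sum_mul, hun, sub_self]
    have hsum : ∑ k ∈ Finset.range (m + 1), u ^ k = 0 := by
      rcases mul_eq_zero.mp hgeom with h | h
      · exact absurd (sub_eq_zero.mp h) hne
      · exact h
    rw [Finset.sum_range_succ'] at hsum
    have hT : FixSq c (∑ k ∈ Finset.range m, u ^ (k + 1)) :=
      fixSq_sum hc hc1 _ _ fun j _ => fixSq_pow c huS (j + 1)
    have hT' : ∑ k ∈ Finset.range m, u ^ (k + 1) = -1 := by
      rw [pow_zero] at hsum
      linear_combination hsum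
    rw [hT'] at hT
    exact not_fixSq_neg_one hc hc1 hT
  exact eq_inv_of_mul_eq_one_right hu1

end Abstract

/-- **An involution `c ≠ 1` of `ℚ̄` inverts every root of unity.** -/
theorem involution_apply_root
    (c : AlgebraicClosure ℚ ≃ₐ[ℚ] AlgebraicClosure ℚ) (hc : c * c = 1) (hc1 : c ≠ 1) {n : ℕ}
    (hn : 0 < n) {μ : AlgebraicClosure ℚ} (hμ : μ ^ n = 1) : c μ = μ⁻¹ := by
  have h1 : ∀ x, (c : AlgebraicClosure ℚ ≃+* AlgebraicClosure ℚ)
      ((c : AlgebraicClosure ℚ ≃+* AlgebraicClosure ℚ) x) = x := by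
    intro x
    have := congrArg (fun f : AlgebraicClosure ℚ ≃ₐ[ℚ] AlgebraicClosure ℚ => f x) hc
    simpa using this
  have h2 : ∃ a, (c : AlgebraicClosure ℚ ≃+* AlgebraicClosure ℚ) a ≠ a := by
    by_contra hno
    have hall : ∀ a, (c : AlgebraicClosure ℚ ≃+* AlgebraicClosure ℚ) a = a := fun a =>
      not_not.mp fun h => hno ⟨a, h⟩
    exact hc1 (AlgEquiv.ext fun x => by simpa using hall x)
  exact involution_apply_root_abstract (c := (c : AlgebraicClosure ℚ ≃+* AlgebraicClosure ℚ))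
    h1 h2 hn hμ

/-- **Leaf H1 in the form consumed by `S58/Reduction.lean`.** -/
theorem invol_root_pow (c : AlgebraicClosure ℚ ≃ₐ[ℚ] AlgebraicClosure ℚ) (hc : c * c = 1)
    (hc1 : c ≠ 1) {p : ℕ} (hp : p.Prime) (_hp2 : p ≠ 2) (μ : AlgebraicClosure ℚ)
    (hμ : μ ^ p = 1) : c μ = μ ^ (p - 1) := by
  rw [involution_apply_root c hc hc1 hp.pos hμ]
  have hμ0 : μ ≠ 0 := by
    rintro rfl
    rw [zero_pow hp.pos.ne'] at hμ
    exact zero_ne_one hμ
  apply inv_eq_of_mul_eq_one_left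
  rw [← pow_succ, Nat.sub_add_cancel hp.pos, hμ]

end Fermat.Agent.S58
end MergeWrap_S58_Invol

section MergeWrap_S58_Burnside -- from S58/Burnside.lean

/-!
# S58: a converse of Burnside's lemma for `GaloisRepAdic`

If four matrices of a representation `ρ : GaloisRepAdic A` form a basis of `M₂(A)` (unit
determinant of the coordinate matrix), the residual representation is absolutely irreducible.
Since the Gram matrix of the trace form only depends on the traces, absolute irreducibility of the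
reduction is a property of the trace function (`isAbsolutelyIrreducible_of_trace_eq`).
-/

set_option autoImplicit false

namespace Fermat.Agent.S58

open Matrix Module TensorProduct Fermat.Agent.TraceRigidity

local notation "GQ" => (AlgebraicClosure ℚ ≃ₐ[ℚ] AlgebraicClosure ℚ)

/-- In a vector space, a subspace stable under all endomorphisms is `⊥` or `⊤`. -/
theorem eq_bot_or_top_of_forall_end {K W : Type*} [Field K] [AddCommGroup W] [Module K W]
    (U : Submodule K W) (h : ∀ f : Module.End K W, ∀ x ∈ U, f x ∈ U) : U = ⊥ ∨ U = ⊤ := by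
  by_cases hU : U = ⊥
  · exact Or.inl hU
  right
  obtain ⟨u, hu, hu0⟩ := (Submodule.ne_bot_iff U).mp hU
  obtain ⟨φ, hφ⟩ : ∃ φ : Module.Dual K W, φ u ≠ 0 := by
    by_contra hcon
    rw [not_exists] at hcon
    simp only [not_not] at hcon
    exact hu0 ((Module.forall_dual_apply_eq_zero_iff K u).mp hcon)
  rw [eq_top_iff]
  intro v _
  have := h ((φ u)⁻¹ • (φ.smulRight v)) u hu
  rw [LinearMap.smul_apply, LinearMap.smulRight_apply, smul_smul, inv_mul_cancel₀ hφ,
    one_smul] at this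
  exact this

/-- A subspace stable under a spanning family of endomorphisms is `⊥` or `⊤`. -/
theorem eq_bot_or_top_of_span_eq_top {K W : Type*} [Field K] [AddCommGroup W] [Module K W]
    {ι : Type*} (F : ι → Module.End K W) (hF : Submodule.span K (Set.range F) = ⊤)
    (U : Submodule K W) (h : ∀ i, ∀ x ∈ U, F i x ∈ U) : U = ⊥ ∨ U = ⊤ := by
  refine eq_bot_or_top_of_forall_end U fun f => ?_
  have hf : f ∈ Submodule.span K (Set.range F) := by rw [hF]; trivial
  induction hf using Submodule.span_induction with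
  | mem x hx =>
    obtain ⟨i, rfl⟩ := hx
    exact h i
  | zero => intro x _; rw [LinearMap.zero_apply]; exact U.zero_mem
  | add a b _ _ ha hb =>
    intro x hx
    rw [LinearMap.add_apply]
    exact U.add_mem (ha x hx) (hb x hx)
  | smul c a _ ha =>
    intro x hx
    rw [LinearMap.smul_apply]
    exact U.smul_mem c (ha x hx)

/-- **Converse of Burnside.** -/
theorem isAbsolutelyIrreducible_of_isUnit_det_coordMat {A : Type} [CommRing A] [IsLocalRing A]
    (ρ : GaloisRepAdic A) (b : Basis (Fin 2) A ρ.V) (g : Fin 2 × Fin 2 → GQ)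
    (hg : IsUnit (coordMat (fun σ => LinearMap.toMatrix b b (ρ.ρ σ)) g).det) :
    ρ.residual.IsAbsolutelyIrreducible := by
  classical
  set k := IsLocalRing.ResidueField A with hk
  set K := AlgebraicClosure k with hK
  intro U hU
  set bk : Basis (Fin 2) k (k ⊗[A] ρ.V) := Algebra.TensorProduct.basis k b with hbk
  set bK : Basis (Fin 2) K (K ⊗[k] (k ⊗[A] ρ.V)) := Algebra.TensorProduct.basis K bk with hbK
  set ρK : GQ → Module.End K (K ⊗[k] (k ⊗[A] ρ.V)) :=
    fun x => ((ρ.ρ x).baseChange k).baseChange K with hρK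
  set rK : GQ → Matrix (Fin 2) (Fin 2) K := fun σ => LinearMap.toMatrix bK bK (ρK σ) with hrK
  have hrK_eq : ∀ σ, rK σ = ((LinearMap.toMatrix b b (ρ.ρ σ)).map (algebraMap A k)).map
      (algebraMap k K) := by
    intro σ
    rw [← LinearMap.toMatrix_baseChange, ← LinearMap.toMatrix_baseChange]
  have h2 : coordMat rK g = ((algebraMap k K).comp (algebraMap A k)).mapMatrix
      (coordMat (fun σ => LinearMap.toMatrix b b (ρ.ρ σ)) g) := by
    ext ab j
    simp only [coordMat, Matrix.of_apply, RingHom.mapMatrix_apply, Matrix.map_apply]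
    rw [hrK_eq]
    rfl
  have h3 : IsUnit (coordMat rK g).det := by
    rw [h2, ← RingHom.map_det]
    exact hg.map _
  -- the four matrices `rK (g j)` form a basis of `M₂(K)`
  have h4 : Submodule.span K (Set.range fun j => rK (g j)) = ⊤ := by
    have := (Module.Basis.is_basis_iff_det (Matrix.stdBasis K (Fin 2) (Fin 2))
      (v := fun j => rK (g j))).mpr (by
        rw [Basis.det_apply, stdBasis_toMatrix]
        exact h3)
    exact this.2
  -- hence the four endomorphisms span `End`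
  have h5 : Submodule.span K (Set.range fun j => ρK (g j)) = ⊤ := by
    have e : (Set.range fun j => rK (g j)) =
        ((LinearMap.toMatrix bK bK).toLinearMap :
          Module.End K (K ⊗[k] (k ⊗[A] ρ.V)) →ₗ[K] Matrix (Fin 2) (Fin 2) K) ''
            (Set.range fun j => ρK (g j)) := by
      rw [← Set.range_comp]
      rfl
    rw [e, ← Submodule.map_span] at h4
    have hinj : Function.Injective ((LinearMap.toMatrix bK bK).toLinearMap :
        Module.End K (K ⊗[k] (k ⊗[A] ρ.V)) →ₗ[K] Matrix (Fin 2) (Fin 2) K) :=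
      (LinearMap.toMatrix bK bK).injective
    exact Submodule.map_injective_of_injective hinj (by rw [h4, Submodule.map_top,
      LinearMap.range_eq_top.mpr (LinearMap.toMatrix bK bK).surjective])
  exact eq_bot_or_top_of_span_eq_top (fun j => ρK (g j)) h5 U fun j x hx => hU (g j) x hx

/-- **Absolute irreducibility of the reduction only depends on the trace.** -/
theorem isAbsolutelyIrreducible_of_trace_eq {A : Type} [CommRing A] [IsLocalRing A]
    (ρ₁ ρ₂ : GaloisRepAdic A) (b₁ : Basis (Fin 2) A ρ₁.V) (g : Fin 2 × Fin 2 → GQ)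
    (hg : IsUnit (coordMat (fun σ => LinearMap.toMatrix b₁ b₁ (ρ₁.ρ σ)) g).det)
    (htr : ∀ σ, LinearMap.trace A ρ₁.V (ρ₁.ρ σ) = LinearMap.trace A ρ₂.V (ρ₂.ρ σ)) :
    ρ₂.residual.IsAbsolutelyIrreducible := by
  classical
  set b₂ : Basis (Fin 2) A ρ₂.V := Module.finBasisOfFinrankEq A ρ₂.V ρ₂.finrank_eq with hb₂
  refine isAbsolutelyIrreducible_of_isUnit_det_coordMat ρ₂ b₂ g ?_
  rw [← isUnit_det_gramMat_iff] at hg ⊢
  have hD : gramMat (fun σ => LinearMap.toMatrix b₁ b₁ (ρ₁.ρ σ)) g =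
      gramMat (fun σ => LinearMap.toMatrix b₂ b₂ (ρ₂.ρ σ)) g := by
    ext j l
    simp only [gramMat, Matrix.of_apply]
    rw [← LinearMap.toMatrix_mul, ← LinearMap.toMatrix_mul, ← map_mul, ← map_mul,
      ← LinearMap.trace_eq_matrix_trace A b₁, ← LinearMap.trace_eq_matrix_trace A b₂]
    exact htr _
  rw [← hD]
  exact hg

end Fermat.Agent.S58
end MergeWrap_S58_Burnside

section MergeWrap_S58_TateBC -- from S58/TateBC.lean

/-!
# S58: the Tate module of `W`, base-changed to a complete local ring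

For a complete local ring `O` with `lam ∈ 𝔪_O` we base-change the `lam`-adic Tate module of the
integral Weierstrass model `W` along `ℤ_[lam] → O` and record its Frobenius characteristic
polynomials, unipotence on inertia (semistable case), the determinant at involutions, and a basis
of `M₂(O)` inside its image (residually absolutely irreducible case).
-/

set_option autoImplicit false
set_option linter.style.haveILetI false
set_option linter.unusedSectionVars false

noncomputable section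

namespace Fermat.Agent.S58

open Polynomial IsLocalRing Module TensorProduct Fermat.Agent.TateModule
  Fermat.Agent.TraceRigidity

local notation "GQ" => (AlgebraicClosure ℚ ≃ₐ[ℚ] AlgebraicClosure ℚ)
local notation "Qbar" => AlgebraicClosure ℚ

variable {O : Type} [CommRing O] [IsLocalRing O] [IsAdicComplete (maximalIdeal O) O]
variable (lam : ℕ) [hlamP : Fact lam.Prime]

/-- The canonical homomorphism `ℤ_[lam] → O`. -/
def tateTo (hlam : (lam : O) ∈ maximalIdeal O) : ℤ_[lam] →+* O :=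
  Fermat.Agent.Cyclo.padicToComplete lam (maximalIdeal O) hlam

theorem tateTo_mem_maximalIdeal (hlam : (lam : O) ∈ maximalIdeal O) {x : ℤ_[lam]}
    (hx : x ∈ Ideal.span {(lam : ℤ_[lam])}) : tateTo lam hlam x ∈ maximalIdeal O := by
  have h1 : x ∈ Ideal.span {(lam : ℤ_[lam]) ^ 1} := by rwa [pow_one]
  have := Fermat.Agent.Cyclo.padicToComplete_mem lam (maximalIdeal O) hlam 1 h1
  rwa [pow_one] at this

theorem tateTo_isLocalHom (hlam : (lam : O) ∈ maximalIdeal O) : IsLocalHom (tateTo lam hlam) := by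
  constructor
  intro a ha
  by_contra hna
  have h1 : a ∈ maximalIdeal ℤ_[lam] := (mem_maximalIdeal a).mpr (mem_nonunits_iff.mpr hna)
  rw [PadicInt.maximalIdeal_eq_span_p] at h1
  have h2 := tateTo_mem_maximalIdeal lam hlam h1
  exact (mem_nonunits_iff.mp ((mem_maximalIdeal _).mp h2)) ha

variable (W : WeierstrassCurve ℤ)

/-- The `lam`-adic Tate module of `W`, with coefficients extended to `O`. -/
def tateBC (hΔ : W.Δ ≠ 0) (hlam : (lam : O) ∈ maximalIdeal O) : GaloisRepAdic O :=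
  (tateRepOfModel W lam hΔ).baseChangeAlong (tateTo lam hlam) (tateTo_isLocalHom lam hlam)

variable {lam W}

theorem tateBC_charpoly (hΔ : W.Δ ≠ 0) (hlam : (lam : O) ∈ maximalIdeal O) (σ : GQ) :
    LinearMap.charpoly ((tateBC lam W hΔ hlam).ρ σ) =
      (LinearMap.charpoly ((tateRepOfModel W lam hΔ).ρ σ)).map (tateTo lam hlam) :=
  Fermat.Agent.S35SMO.charpoly_baseChangeAlong _ _ _ σ

theorem tateBC_det (hΔ : W.Δ ≠ 0) (hlam : (lam : O) ∈ maximalIdeal O) (σ : GQ) :
    LinearMap.det ((tateBC lam W hΔ hlam).ρ σ) =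
      tateTo lam hlam (LinearMap.det ((tateRepOfModel W lam hΔ).ρ σ)) := by
  letI : Algebra ℤ_[lam] O := (tateTo lam hlam).toAlgebra
  exact LinearMap.det_baseChange ((tateRepOfModel W lam hΔ).ρ σ)

/-- **Frobenius characteristic polynomial** at every good prime `ℓ ≠ lam`. -/
theorem tateBC_charpoly_frobenius (hΔ : W.Δ ≠ 0) (hlam : (lam : O) ∈ maximalIdeal O)
    {ℓ : ℕ} (hℓ : ℓ.Prime) (hℓlam : ℓ ≠ lam) (hgood : W.IsGoodPrimeFor ℓ)
    (A : ValuationSubring Qbar) (hA : A.LiesOverPrime ℓ) (τ : GQ) (hτ : A.IsFrobeniusAt τ ℓ) :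
    LinearMap.charpoly ((tateBC lam W hΔ hlam).ρ τ) =
      X ^ 2 - C (((W.apOfModel ℓ : ℤ) : O)) * X + C ((ℓ : O)) := by
  haveI : Fact ℓ.Prime := ⟨hℓ⟩
  rw [tateBC_charpoly, tateRepOfModel_charpoly_frobenius hΔ hℓlam hgood A hA τ hτ]
  simp only [Polynomial.map_add, Polynomial.map_sub, Polynomial.map_mul, Polynomial.map_pow,
    Polynomial.map_X, map_intCast, map_natCast, Polynomial.map_intCast,
    Polynomial.map_natCast]

/-- The Tate module of a semistable model is unipotent on inertia at every prime `q ≠ lam`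
(`lam` odd). -/
theorem tateRepOfModel_isUnipotentOnInertiaAt (hΔ : W.Δ ≠ 0) (hss : W.IsSemistableModel)
    (hlam2 : lam ≠ 2) {q : ℕ} (hq : q.Prime) (hqlam : q ≠ lam) :
    (tateRepOfModel W lam hΔ).IsUnipotentOnInertiaAt q := by
  by_cases hbad : (q : ℤ) ∣ W.Δ
  · exact Fermat.Agent.MultRed.tateRep_isUnipotentOnInertiaAt_of_semistable W hss hlam2
      (map_Δ_ne_zero_of_model hΔ) hq hqlam hbad
  · intro P hP σ hσ
    have h1 := tateRepOfModel_isUnramifiedAt (p := lam) hΔ hq hqlam hbad P hP σ hσ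
    rw [h1]
    refine charpoly_of_sub_one_sq (tateRepOfModel W lam hΔ).finrank_eq _ ?_
    rw [sub_self, zero_pow two_ne_zero]

theorem tateBC_isUnipotentOnInertiaAt (hΔ : W.Δ ≠ 0) (hlam : (lam : O) ∈ maximalIdeal O)
    (hss : W.IsSemistableModel) (hlam2 : lam ≠ 2) {q : ℕ} (hq : q.Prime) (hqlam : q ≠ lam) :
    (tateBC lam W hΔ hlam).IsUnipotentOnInertiaAt q := by
  intro P hP σ hσ
  rw [tateBC_charpoly, tateRepOfModel_isUnipotentOnInertiaAt hΔ hss hlam2 hq hqlam P hP σ hσ]
  simp only [Polynomial.map_pow, Polynomial.map_sub, Polynomial.map_X, Polynomial.map_one]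

/-- The determinant of the Tate module at an involution `c ≠ 1` is `-1` modulo `lam`
(`lam` odd). -/
theorem tateBC_det_involution (hΔ : W.Δ ≠ 0) (hlam : (lam : O) ∈ maximalIdeal O)
    (hlam2 : lam ≠ 2) (c : GQ) (hc : c * c = 1) (hc1 : c ≠ 1) :
    LinearMap.det ((tateBC lam W hΔ hlam).ρ c) + 1 ∈ maximalIdeal O := by
  have hdet := (tateRepOfModel_detIsCyclotomic (p := lam) (W := W) hΔ).2 1 c (lam - 1)
    (fun μ hμ => by
      rw [pow_one] at hμ
      exact invol_root_pow c hc hc1 hlamP.out hlam2 μ hμ)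
  rw [pow_one] at hdet
  have h1 := tateTo_mem_maximalIdeal lam hlam hdet
  rw [map_sub, map_natCast, ← tateBC_det] at h1
  have h2 : ((lam - 1 : ℕ) : O) + 1 = (lam : O) := by
    rw [← Nat.cast_succ, Nat.succ_eq_add_one, Nat.sub_add_cancel hlamP.out.pos]
  have h3 : LinearMap.det ((tateBC lam W hΔ hlam).ρ c) + 1 =
      (LinearMap.det ((tateBC lam W hΔ hlam).ρ c) - ((lam - 1 : ℕ) : O)) + (lam : O) := by
    rw [← h2]; ring
  rw [h3]
  exact Ideal.add_mem _ h1 hlam

/-- If `W[lam]` is irreducible (`lam` odd), four matrices of the base-changed Tate module form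
a basis of `M₂(O)`. -/
theorem tateBC_exists_coordMat (hΔ : W.Δ ≠ 0) (hlam : (lam : O) ∈ maximalIdeal O)
    (hlam2 : lam ≠ 2)
    (hirr : WeierstrassCurve.Affine.Point.GaloisRepIsIrreducible (K := Qbar) ℚ
      (W.map (Int.castRingHom ℚ)) lam) :
    ∃ (b : Basis (Fin 2) O (tateBC lam W hΔ hlam).V) (g : Fin 2 × Fin 2 → GQ),
      IsUnit (coordMat (fun σ => LinearMap.toMatrix b b ((tateBC lam W hΔ hlam).ρ σ)) g).det := by
  classical
  letI : Algebra ℤ_[lam] O := (tateTo lam hlam).toAlgebra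
  set ρ₀ := tateRepOfModel W lam hΔ with hρ₀
  set b₀ : Basis (Fin 2) ℤ_[lam] ρ₀.V := Module.finBasisOfFinrankEq ℤ_[lam] ρ₀.V ρ₀.finrank_eq
    with hb₀
  obtain ⟨g, hg⟩ := exists_isUnit_det_coordMat ρ₀
    (tateRepOfModel_residual_isAbsolutelyIrreducible hΔ hlam2 hirr) b₀
  refine ⟨Algebra.TensorProduct.basis O b₀, g, ?_⟩
  have h2 : coordMat (fun σ => LinearMap.toMatrix (Algebra.TensorProduct.basis O b₀)
      (Algebra.TensorProduct.basis O b₀) ((tateBC lam W hΔ hlam).ρ σ)) g =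
      (tateTo lam hlam).mapMatrix (coordMat (fun σ => LinearMap.toMatrix b₀ b₀ (ρ₀.ρ σ)) g) := by
    ext ab j
    simp only [coordMat, Matrix.of_apply, RingHom.mapMatrix_apply, Matrix.map_apply]
    have : LinearMap.toMatrix (Algebra.TensorProduct.basis O b₀)
        (Algebra.TensorProduct.basis O b₀) ((tateBC lam W hΔ hlam).ρ (g j)) =
        (LinearMap.toMatrix b₀ b₀ (ρ₀.ρ (g j))).map (algebraMap ℤ_[lam] O) :=
      LinearMap.toMatrix_baseChange O (ρ₀.ρ (g j)) b₀ b₀
    rw [this]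
    rfl
  have h3 : (coordMat (fun σ => LinearMap.toMatrix (Algebra.TensorProduct.basis O b₀)
      (Algebra.TensorProduct.basis O b₀) ((tateBC lam W hΔ hlam).ρ σ)) g).det =
      tateTo lam hlam (coordMat (fun σ => LinearMap.toMatrix b₀ b₀ (ρ₀.ρ σ)) g).det := by
    rw [h2, ← RingHom.map_det]
  have h4 := hg.map (tateTo lam hlam)
  rw [← h3] at h4
  exact h4

end Fermat.Agent.S58
end
end MergeWrap_S58_TateBC

section MergeWrap_S58_Compare -- from S58/Compare.lean

/-!
# S58: comparison of an attached representation with the Tate module of `W`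

Let `ρ` be a representation over a complete discrete valuation ring `O''` (`lam ∈ 𝔪`, char 0)
whose Frobenius characteristic polynomials outside a finite set of primes are
`X² - a_ℓ(W) X + ℓ`.  Then `ρ` and the base-changed `lam`-adic Tate module of `W` have the same
trace, determinant and characteristic polynomial at every element of `G_ℚ`
(Frobenius density + continuity, `TraceRigidity.trace_eq_of_charpoly_frob_eq`).
Consequences: unipotence on inertia, oddness and absolute irreducibility of the reduction.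
-/

set_option autoImplicit false
set_option linter.style.haveILetI false
set_option linter.unusedSectionVars false

noncomputable section

namespace Fermat.Agent.S58

open Polynomial IsLocalRing Module Fermat.Agent.TateModule Fermat.Agent.TraceRigidity

local notation "GQ" => (AlgebraicClosure ℚ ≃ₐ[ℚ] AlgebraicClosure ℚ)
local notation "Qbar" => AlgebraicClosure ℚ

/-! ### rank two linear algebra -/

/-- `2 det f = (tr f)² - tr (f²)` in rank two. -/
theorem two_mul_det_eq {A : Type*} [CommRing A] [Nontrivial A] {V : Type*} [AddCommGroup V]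
    [Module A V] [Module.Free A V] [Module.Finite A V] (hV : Module.finrank A V = 2)
    (f : Module.End A V) :
    2 * LinearMap.det f = (LinearMap.trace A V f) ^ 2 - LinearMap.trace A V (f * f) := by
  classical
  set b : Basis (Fin 2) A V := Module.finBasisOfFinrankEq A V hV with hb
  rw [← LinearMap.det_toMatrix b, LinearMap.trace_eq_matrix_trace A b,
    LinearMap.trace_eq_matrix_trace A b, LinearMap.toMatrix_mul]
  set M := LinearMap.toMatrix b b f with hM
  rw [Matrix.det_fin_two, Matrix.trace_fin_two, Matrix.trace_fin_two]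
  simp only [Matrix.mul_apply, Fin.sum_univ_two]
  ring

/-- Equal traces give equal determinants (rank two, `2` not a zero divisor). -/
theorem det_eq_of_forall_trace_eq {A : Type} [CommRing A] [IsDomain A] [IsLocalRing A]
    (h2 : (2 : A) ≠ 0) (ρ₁ ρ₂ : GaloisRepAdic A)
    (htr : ∀ σ, LinearMap.trace A ρ₁.V (ρ₁.ρ σ) = LinearMap.trace A ρ₂.V (ρ₂.ρ σ)) (σ : GQ) :
    LinearMap.det (ρ₁.ρ σ) = LinearMap.det (ρ₂.ρ σ) := by
  have e1 := two_mul_det_eq ρ₁.finrank_eq (ρ₁.ρ σ)
  have e2 := two_mul_det_eq ρ₂.finrank_eq (ρ₂.ρ σ)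
  rw [← map_mul, htr, htr] at e1
  rw [← map_mul] at e2
  exact mul_left_cancel₀ h2 (e1.trans e2.symm)

/-- Equal traces give equal characteristic polynomials. -/
theorem charpoly_eq_of_forall_trace_eq {A : Type} [CommRing A] [IsDomain A] [IsLocalRing A]
    (h2 : (2 : A) ≠ 0) (ρ₁ ρ₂ : GaloisRepAdic A)
    (htr : ∀ σ, LinearMap.trace A ρ₁.V (ρ₁.ρ σ) = LinearMap.trace A ρ₂.V (ρ₂.ρ σ)) (σ : GQ) :
    LinearMap.charpoly (ρ₁.ρ σ) = LinearMap.charpoly (ρ₂.ρ σ) := by
  rw [charpoly_of_finrank_two ρ₁.finrank_eq, charpoly_of_finrank_two ρ₂.finrank_eq, htr σ,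
    det_eq_of_forall_trace_eq h2 ρ₁ ρ₂ htr σ]

/-! ### the comparison -/

section Compare

variable {O : Type} [CommRing O] [IsDomain O] [IsDiscreteValuationRing O]
  [IsAdicComplete (maximalIdeal O) O] [CharZero O]
variable {W : WeierstrassCurve ℤ} {lam : ℕ} [hlamP : Fact lam.Prime]

/-- **Comparison, trace form.** -/
theorem trace_eq_tateBC (hΔ : W.Δ ≠ 0) (hlam : (lam : O) ∈ maximalIdeal O)
    (ρ : GaloisRepAdic O) (T : Finset ℕ)
    (hρ : ∀ ℓ : ℕ, ℓ.Prime → ℓ ∉ T → W.IsGoodPrimeFor ℓ ∧ ℓ ≠ lam ∧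
      ∀ A : ValuationSubring Qbar, A.LiesOverPrime ℓ → ∀ σ : GQ, A.IsFrobeniusAt σ ℓ →
        LinearMap.charpoly (ρ.ρ σ) = X ^ 2 - C (((W.apOfModel ℓ : ℤ) : O)) * X + C ((ℓ : O)))
    (σ : GQ) :
    LinearMap.trace O (tateBC lam W hΔ hlam).V ((tateBC lam W hΔ hlam).ρ σ) =
      LinearMap.trace O ρ.V (ρ.ρ σ) := by
  refine trace_eq_of_charpoly_frob_eq Fermat.Agent.F3.frobDensityLite (tateBC lam W hΔ hlam) ρ T
    ?_ σ
  intro ℓ hℓ hℓT A hA τ hτ
  obtain ⟨hg, hne, h⟩ := hρ ℓ hℓ hℓT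
  rw [h A hA τ hτ, tateBC_charpoly_frobenius hΔ hlam hℓ hne hg A hA τ hτ]

/-- **Comparison, characteristic polynomials.** -/
theorem charpoly_eq_tateBC (hΔ : W.Δ ≠ 0) (hlam : (lam : O) ∈ maximalIdeal O)
    (ρ : GaloisRepAdic O) (T : Finset ℕ)
    (hρ : ∀ ℓ : ℕ, ℓ.Prime → ℓ ∉ T → W.IsGoodPrimeFor ℓ ∧ ℓ ≠ lam ∧
      ∀ A : ValuationSubring Qbar, A.LiesOverPrime ℓ → ∀ σ : GQ, A.IsFrobeniusAt σ ℓ →
        LinearMap.charpoly (ρ.ρ σ) = X ^ 2 - C (((W.apOfModel ℓ : ℤ) : O)) * X + C ((ℓ : O)))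
    (σ : GQ) :
    LinearMap.charpoly (ρ.ρ σ) = LinearMap.charpoly ((tateBC lam W hΔ hlam).ρ σ) :=
  (charpoly_eq_of_forall_trace_eq two_ne_zero _ _ (trace_eq_tateBC hΔ hlam ρ T hρ) σ).symm

/-- Unipotence on inertia (semistable `W`, `lam` odd, `q ≠ lam`). -/
theorem isUnipotentOnInertiaAt_of_compare (hΔ : W.Δ ≠ 0) (hlam : (lam : O) ∈ maximalIdeal O)
    (ρ : GaloisRepAdic O) (T : Finset ℕ)
    (hρ : ∀ ℓ : ℕ, ℓ.Prime → ℓ ∉ T → W.IsGoodPrimeFor ℓ ∧ ℓ ≠ lam ∧
      ∀ A : ValuationSubring Qbar, A.LiesOverPrime ℓ → ∀ σ : GQ, A.IsFrobeniusAt σ ℓ →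
        LinearMap.charpoly (ρ.ρ σ) = X ^ 2 - C (((W.apOfModel ℓ : ℤ) : O)) * X + C ((ℓ : O)))
    (hss : W.IsSemistableModel) (hlam2 : lam ≠ 2) {q : ℕ} (hq : q.Prime) (hqlam : q ≠ lam) :
    ρ.IsUnipotentOnInertiaAt q := by
  intro P hP σ hσ
  rw [charpoly_eq_tateBC hΔ hlam ρ T hρ σ]
  exact tateBC_isUnipotentOnInertiaAt hΔ hlam hss hlam2 hq hqlam P hP σ hσ

/-- Frobenius characteristic polynomial at EVERY good prime `q ≠ lam`. -/
theorem charpoly_frobenius_of_compare (hΔ : W.Δ ≠ 0) (hlam : (lam : O) ∈ maximalIdeal O)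
    (ρ : GaloisRepAdic O) (T : Finset ℕ)
    (hρ : ∀ ℓ : ℕ, ℓ.Prime → ℓ ∉ T → W.IsGoodPrimeFor ℓ ∧ ℓ ≠ lam ∧
      ∀ A : ValuationSubring Qbar, A.LiesOverPrime ℓ → ∀ σ : GQ, A.IsFrobeniusAt σ ℓ →
        LinearMap.charpoly (ρ.ρ σ) = X ^ 2 - C (((W.apOfModel ℓ : ℤ) : O)) * X + C ((ℓ : O)))
    {q : ℕ} (hq : q.Prime) (hqlam : q ≠ lam) (hgood : W.IsGoodPrimeFor q)
    (A : ValuationSubring Qbar) (hA : A.LiesOverPrime q) (σ : GQ) (hσ : A.IsFrobeniusAt σ q) :
    LinearMap.charpoly (ρ.ρ σ) = X ^ 2 - C (((W.apOfModel q : ℤ) : O)) * X + C ((q : O)) := by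
  rw [charpoly_eq_tateBC hΔ hlam ρ T hρ σ]
  exact tateBC_charpoly_frobenius hΔ hlam hq hqlam hgood A hA σ hσ

/-- Oddness of the reduction (`lam` odd). -/
theorem residual_isOdd_of_compare (hΔ : W.Δ ≠ 0) (hlam : (lam : O) ∈ maximalIdeal O)
    (ρ : GaloisRepAdic O) (T : Finset ℕ)
    (hρ : ∀ ℓ : ℕ, ℓ.Prime → ℓ ∉ T → W.IsGoodPrimeFor ℓ ∧ ℓ ≠ lam ∧
      ∀ A : ValuationSubring Qbar, A.LiesOverPrime ℓ → ∀ σ : GQ, A.IsFrobeniusAt σ ℓ →
        LinearMap.charpoly (ρ.ρ σ) = X ^ 2 - C (((W.apOfModel ℓ : ℤ) : O)) * X + C ((ℓ : O)))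
    (hlam2 : lam ≠ 2) : ρ.residual.IsOdd := by
  intro c hc hc1
  rw [residual_det, ← det_eq_of_forall_trace_eq two_ne_zero _ _
    (trace_eq_tateBC hΔ hlam ρ T hρ) c]
  have h := tateBC_det_involution (W := W) hΔ hlam hlam2 c hc hc1
  have h2 := (residue_eq_zero_iff _).mpr h
  rw [map_add, map_one] at h2
  exact eq_neg_of_add_eq_zero_left h2

/-- Absolute irreducibility of the reduction (`W[lam]` irreducible, `lam` odd). -/
theorem residual_isAbsolutelyIrreducible_of_compare (hΔ : W.Δ ≠ 0)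
    (hlam : (lam : O) ∈ maximalIdeal O) (ρ : GaloisRepAdic O) (T : Finset ℕ)
    (hρ : ∀ ℓ : ℕ, ℓ.Prime → ℓ ∉ T → W.IsGoodPrimeFor ℓ ∧ ℓ ≠ lam ∧
      ∀ A : ValuationSubring Qbar, A.LiesOverPrime ℓ → ∀ σ : GQ, A.IsFrobeniusAt σ ℓ →
        LinearMap.charpoly (ρ.ρ σ) = X ^ 2 - C (((W.apOfModel ℓ : ℤ) : O)) * X + C ((ℓ : O)))
    (hlam2 : lam ≠ 2)
    (hirr : WeierstrassCurve.Affine.Point.GaloisRepIsIrreducible (K := Qbar) ℚ
      (W.map (Int.castRingHom ℚ)) lam) :
    ρ.residual.IsAbsolutelyIrreducible := by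
  obtain ⟨b, g, hg⟩ := tateBC_exists_coordMat (O := O) hΔ hlam hlam2 hirr
  exact isAbsolutelyIrreducible_of_trace_eq (tateBC lam W hΔ hlam) ρ b g hg
    (trace_eq_tateBC hΔ hlam ρ T hρ)

end Compare

/-! ### the coefficient of an attached representation -/

/-- If `χ t = a ∈ ℤ`, the image of `t` in any ring under `ι ∘ χ` is `a`. -/
theorem attached_coeff_eq {M : ℕ} [NeZero M] {S : Set ℕ}
    (chig : CuspForm.heckeAlgebra M 2 S →+* ℂ) {O' O'' : Type} [CommRing O'] [CommRing O'']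
    [Algebra O' O''] (iota : chig.range →+* O') (t : CuspForm.heckeAlgebra M 2 S) (a : ℤ)
    (h : chig t = (a : ℂ)) :
    algebraMap O' O'' ((iota.comp chig.rangeRestrict) t) = (a : O'') := by
  have h1 : chig.rangeRestrict t = ((a : ℤ) : chig.range) := by
    apply Subtype.ext
    rw [RingHom.coe_rangeRestrict, h]
    simp
  rw [RingHom.comp_apply, h1, map_intCast, map_intCast]

end Fermat.Agent.S58
end
end MergeWrap_S58_Compare

section MergeWrap_S58_ApBound -- from S58/ApBound.lean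

/-!
# S58, leaf H2 (helper38): `a_q(W) ≠ ± (q + 1)`

For an integral Weierstrass equation `W` and a prime `q` (no good-reduction hypothesis):
`1 ≤ #W(𝔽_q) ≤ 2 q + 1` (the point at infinity; at most two `y` for every `x`), hence
`a_q = q + 1 - #W(𝔽_q)` is neither `q + 1` nor `-(q + 1)`.
-/

set_option autoImplicit false
set_option linter.unusedSectionVars false
set_option linter.style.haveILetI false

open Polynomial

namespace Fermat.Agent.S58

section Count

variable {F : Type*} [Field F] [Fintype F] [DecidableEq F] (W : WeierstrassCurve.Affine F)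

/-- the quadratic polynomial in `Y` cut out by the Weierstrass equation at `x` -/
noncomputable def apQuad (x : F) : F[X] :=
  X ^ 2 + C (W.a₁ * x + W.a₃) * X - C (x ^ 3 + W.a₂ * x ^ 2 + W.a₄ * x + W.a₆)

theorem apQuad_natDegree (x : F) : (apQuad W x).natDegree = 2 := by
  unfold apQuad
  compute_degree!

theorem apQuad_ne_zero (x : F) : apQuad W x ≠ 0 := by
  intro h
  have := apQuad_natDegree W x
  rw [h, natDegree_zero] at this
  omega

theorem apQuad_isRoot {x y : F} (h : W.Equation x y) : (apQuad W x).IsRoot y := by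
  rw [WeierstrassCurve.Affine.equation_iff] at h
  rw [IsRoot.def, apQuad]
  simp only [eval_add, eval_sub, eval_mul, eval_pow, eval_X, eval_C]
  linear_combination h

/-- the affine solutions, as a finite set of pairs -/
noncomputable def apSol : Finset (F × F) :=
  (Finset.univ : Finset F).biUnion fun x => (apQuad W x).roots.toFinset.image fun y => (x, y)

theorem apSol_card_le : (apSol W).card ≤ 2 * Fintype.card F := by
  unfold apSol
  refine le_trans Finset.card_biUnion_le ?_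
  have h : ∀ x ∈ (Finset.univ : Finset F),
      ((apQuad W x).roots.toFinset.image fun y => (x, y)).card ≤ 2 := by
    intro x _
    refine le_trans Finset.card_image_le ?_
    refine le_trans (Multiset.toFinset_card_le _) ?_
    have := (apQuad W x).card_roots'
    rw [apQuad_natDegree] at this
    exact this
  refine le_trans (Finset.sum_le_sum h) ?_
  rw [Finset.sum_const, Finset.card_univ, smul_eq_mul, mul_comm]

theorem mem_apSol {x y : F} (h : W.Equation x y) : (x, y) ∈ apSol W := by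
  unfold apSol
  rw [Finset.mem_biUnion]
  refine ⟨x, Finset.mem_univ x, ?_⟩
  rw [Finset.mem_image]
  refine ⟨y, ?_, rfl⟩
  rw [Multiset.mem_toFinset, mem_roots (apQuad_ne_zero W x)]
  exact apQuad_isRoot W h

/-- a point as an optional pair -/
def apPair : W.Point → Option (F × F)
  | .zero => none
  | .some x y _ => Option.some (x, y)

theorem apPair_injective : Function.Injective (apPair W) := by
  rintro (_ | ⟨x₁, y₁, h₁⟩) (_ | ⟨x₂, y₂, h₂⟩) h <;>
    simp only [apPair, Option.some.injEq, Prod.mk.injEq, reduceCtorEq] at h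
  · rfl
  · obtain ⟨rfl, rfl⟩ := h; rfl

theorem apPair_mem (P : W.Point) : apPair W P ∈ Finset.insertNone (apSol W) := by
  rcases P with _ | ⟨x, y, h⟩
  · exact Finset.none_mem_insertNone
  · rw [apPair, Finset.some_mem_insertNone]
    exact mem_apSol W h.1

/-- **At most `2 q + 1` points.** -/
theorem natCard_point_le : Nat.card W.Point ≤ 2 * Fintype.card F + 1 := by
  classical
  haveI : Finite W.Point := Finite.of_injective _ (apPair_injective W)
  haveI : Fintype W.Point := Fintype.ofFinite _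
  rw [Nat.card_eq_fintype_card, ← Finset.card_univ]
  have h1 : (Finset.univ : Finset W.Point).card ≤ (Finset.insertNone (apSol W)).card :=
    Finset.card_le_card_of_injOn (apPair W) (fun P _ => apPair_mem W P)
      (fun a _ b _ h => apPair_injective W h)
  rw [Finset.card_insertNone] at h1
  exact le_trans h1 (Nat.succ_le_succ (apSol_card_le W))

/-- **At least one point.** -/
theorem natCard_point_pos : 0 < Nat.card W.Point := by
  haveI : Finite W.Point := Finite.of_injective _ (apPair_injective W)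
  haveI : Nonempty W.Point := ⟨0⟩
  exact Nat.card_pos

end Count

/-- **Leaf H2**: the trace of Frobenius of an integral Weierstrass equation at a prime `q` is
neither `q + 1` nor `-(q + 1)`. -/
theorem apOfModel_ne_add_one (W : WeierstrassCurve ℤ) (q : ℕ) [Fact q.Prime] :
    W.apOfModel q ≠ (q : ℤ) + 1 ∧ W.apOfModel q ≠ -((q : ℤ) + 1) := by
  classical
  have hq : Nat.card (ZMod q) = q := Nat.card_zmod q
  have h1 := natCard_point_pos (W.reductionMod q).toAffine
  have h2 := natCard_point_le (W.reductionMod q).toAffine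
  rw [ZMod.card] at h2
  have hap : W.apOfModel q = (q : ℤ) + 1 - (Nat.card (W.reductionMod q).toAffine.Point : ℤ) := by
    rw [WeierstrassCurve.apOfModel, WeierstrassCurve.traceOfFrobenius, hq, WeierstrassCurve.card]
  constructor
  · intro h
    rw [hap] at h
    have : (Nat.card (W.reductionMod q).toAffine.Point : ℤ) = 0 := by linarith
    have : Nat.card (W.reductionMod q).toAffine.Point = 0 := by exact_mod_cast this
    omega
  · intro h
    rw [hap] at h
    have : (Nat.card (W.reductionMod q).toAffine.Point : ℤ) = 2 * (q : ℤ) + 2 := by linarith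
    have : Nat.card (W.reductionMod q).toAffine.Point = 2 * q + 2 := by exact_mod_cast this
    omega

end Fermat.Agent.S58
end MergeWrap_S58_ApBound

section MergeWrap_S59_Endgame_PStab -- from S59/Endgame/PStab.lean

set_option autoImplicit false
set_option linter.style.haveILetI false

open Polynomial

namespace Fermat.Agent.S59

open CuspForm

section Arith

/-- The arithmetic of `p`-stabilisation on coefficient sequences. -/
theorem pstab_arith {N p : ℕ} (hp : p.Prime) (hpN : ¬ p ∣ N) (a : ℕ → ℂ) (β : ℂ)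
    (hβ : β * β - a p * β + p = 0)
    (h1 : a 1 = 1) (hmul : ∀ m n : ℕ, m.Coprime n → a (m * n) = a m * a n)
    (hgood : ∀ ℓ r : ℕ, ℓ.Prime → ¬ ℓ ∣ N →
      a (ℓ ^ (r + 2)) = a ℓ * a (ℓ ^ (r + 1)) - ℓ * a (ℓ ^ r))
    (hbad : ∀ ℓ r : ℕ, ℓ.Prime → ℓ ∣ N → a (ℓ ^ (r + 2)) = a ℓ * a (ℓ ^ (r + 1)))
    (a' : ℕ → ℂ) (ha' : ∀ n, a' n = a n - β * (if p ∣ n then a (n / p) else 0)) :
    a' 1 = 1 ∧ (∀ m n : ℕ, m.Coprime n → a' (m * n) = a' m * a' n) ∧
    (∀ ℓ r : ℕ, ℓ.Prime → ¬ ℓ ∣ N * p →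
      a' (ℓ ^ (r + 2)) = a' ℓ * a' (ℓ ^ (r + 1)) - ℓ * a' (ℓ ^ r)) ∧
    (∀ ℓ r : ℕ, ℓ.Prime → ℓ ∣ N * p → a' (ℓ ^ (r + 2)) = a' ℓ * a' (ℓ ^ (r + 1))) ∧
    ∀ ℓ : ℕ, ℓ.Prime → ℓ ≠ p → a' ℓ = a ℓ := by
  have hp0 : 0 < p := hp.pos
  -- values away from `p`
  have hnot : ∀ n : ℕ, ¬ p ∣ n → a' n = a n := by
    intro n hn
    rw [ha', if_neg hn, mul_zero, sub_zero]
  have hdvd : ∀ n : ℕ, a' (p * n) = a (p * n) - β * a n := by
    intro n
    rw [ha', if_pos (dvd_mul_right p n), Nat.mul_div_cancel_left n hp0]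
  have hpow_not : ∀ ℓ : ℕ, ℓ.Prime → ℓ ≠ p → ∀ r : ℕ, a' (ℓ ^ r) = a (ℓ ^ r) := by
    intro ℓ hℓ hℓp r
    apply hnot
    intro h
    exact hℓp ((Nat.prime_dvd_prime_iff_eq hp hℓ).mp (hp.dvd_of_dvd_pow h)).symm
  have h1' : a' 1 = 1 := by
    rw [hnot 1 (by simpa using hp.one_lt.ne'), h1]
  refine ⟨h1', ?_, ?_, ?_, ?_⟩
  · -- multiplicativity
    intro m n hmn
    by_cases hm : p ∣ m
    · obtain ⟨m₁, rfl⟩ := hm
      have hn : ¬ p ∣ n := by
        intro hn
        have := Nat.Coprime.eq_one_of_dvd (Nat.Coprime.coprime_dvd_left (dvd_mul_right p m₁) hmn) hn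
        exact hp.one_lt.ne' this
      have hm₁n : m₁.Coprime n := Nat.Coprime.coprime_dvd_left (dvd_mul_left m₁ p) hmn
      rw [mul_assoc, hdvd, hdvd, hnot n hn, ← mul_assoc, hmul _ _ hmn, hmul _ _ hm₁n]
      ring
    · by_cases hn : p ∣ n
      · obtain ⟨n₁, rfl⟩ := hn
        have hmn₁ : m.Coprime n₁ := Nat.Coprime.coprime_dvd_right (dvd_mul_left n₁ p) hmn
        have e : m * (p * n₁) = p * (m * n₁) := by ring
        rw [e, hdvd, hdvd, hnot m hm, ← e, hmul _ _ hmn, hmul _ _ hmn₁]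
        ring
      · have hmn' : ¬ p ∣ m * n := by
          intro h
          rcases (Nat.Prime.dvd_mul hp).mp h with h | h
          · exact hm h
          · exact hn h
        rw [hnot _ hmn', hnot m hm, hnot n hn, hmul _ _ hmn]
  · -- good primes
    intro ℓ r hℓ hℓNp
    have hℓN : ¬ ℓ ∣ N := fun h => hℓNp (dvd_mul_of_dvd_left h p)
    have hℓp : ℓ ≠ p := fun h => hℓNp (h ▸ dvd_mul_left ℓ N)
    rw [hpow_not ℓ hℓ hℓp, hpow_not ℓ hℓ hℓp, hpow_not ℓ hℓ hℓp,
      ← pow_one ℓ, hpow_not ℓ hℓ hℓp 1, pow_one]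
    have := hgood ℓ r hℓ hℓN
    simpa using this
  · -- bad primes
    intro ℓ r hℓ hℓNp
    by_cases hℓp : ℓ = p
    · subst hℓp
      have e2 : ℓ ^ (r + 2) = ℓ * ℓ ^ (r + 1) := by ring
      have e1 : ℓ ^ (r + 1) = ℓ * ℓ ^ r := by ring
      have hℓ1 : a' ℓ = a ℓ - β := by
        have := hdvd 1
        rw [mul_one, h1, mul_one] at this
        exact this
      have hg := hgood ℓ r hℓ hpN
      rw [e2, hdvd, ← e2, hg, hℓ1]
      rw [e1, hdvd, ← e1]
      have hβ' : (ℓ : ℂ) = a ℓ * β - β * β := by linear_combination hβ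
      rw [hβ']
      ring
    · have hℓN : ℓ ∣ N := by
        rcases (Nat.Prime.dvd_mul hℓ).mp hℓNp with h | h
        · exact h
        · exact absurd ((Nat.prime_dvd_prime_iff_eq hℓ hp).mp h) hℓp
      rw [hpow_not ℓ hℓ hℓp, hpow_not ℓ hℓ hℓp, ← pow_one ℓ, hpow_not ℓ hℓ hℓp 1, pow_one]
      have := hbad ℓ r hℓ hℓN
      simpa using this
  · intro ℓ hℓ hℓp
    have := hpow_not ℓ hℓ hℓp 1
    simpa using this

end Arith

section Analytic

open UpperHalfPlane ModularForm CongruenceSubgroup Matrix.SpecialLinearGroup ConjAct Pointwise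
open scoped MatrixGroups
open Fermat.Agent.S23Converse Fermat.Agent.S16Norm

/-- Restriction of a cusp form to a smaller group. -/
def pstabRestrict {Γ Γ' : Subgroup (GL (Fin 2) ℝ)} {k : ℤ} (h : Γ' ≤ Γ) (F : CuspForm Γ k) :
    CuspForm Γ' k where
  toFun := F
  slash_action_eq' := fun γ hγ => F.slash_action_eq' γ (h hγ)
  holo' := F.holo'
  zero_at_cusps' := fun hc => F.zero_at_cusps' (hc.mono h)

@[simp] theorem coe_pstabRestrict {Γ Γ' : Subgroup (GL (Fin 2) ℝ)} {k : ℤ} (h : Γ' ≤ Γ)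
    (F : CuspForm Γ k) : (pstabRestrict h F : ℍ → ℂ) = F := rfl

/-- `Γ₀(N p) ⊆ δ⁻¹ Γ₀(N) δ`, `δ = diag(p, 1)`. -/
theorem pstab_le (N : ℕ) {p : ℕ} (hp : p ≠ 0) :
    ((Gamma0 (N * p)).map (mapGL ℝ)) ≤
      toConjAct (heckeDiagMatrix p)⁻¹ • ((Gamma0 N).map (mapGL ℝ)) := by
  rintro _ ⟨γ, hγ, rfl⟩
  rw [map_inv, Subgroup.mem_inv_pointwise_smul_iff, toConjAct_smul]
  -- the lower left entry is divisible by `N p`
  have hc : ((N * p : ℕ) : ℤ) ∣ γ 1 0 := by
    have := Gamma0_mem.mp hγ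
    exact (ZMod.intCast_zmod_eq_zero_iff_dvd _ _).mp this
  obtain ⟨c', hc'⟩ := hc
  have hdet := γ.det_coe
  rw [Matrix.det_fin_two] at hdet
  have hc'' : (γ 1 0 : ℤ) = (N : ℤ) * (p : ℤ) * c' := by
    rw [hc']; push_cast; ring
  have hdet' : (γ 0 0 * γ 1 1 - (p : ℤ) * γ 0 1 * ((N : ℤ) * c')) = 1 := by
    linear_combination hdet + (γ 0 1) * hc''
  let γ' : SL(2, ℤ) := ⟨!![γ 0 0, (p : ℤ) * γ 0 1; (N : ℤ) * c', γ 1 1], by
    rw [Matrix.det_fin_two_of]; exact hdet'⟩
  refine ⟨γ', Gamma0_mem.mpr ?_, ?_⟩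
  · show (((N : ℤ) * c' : ℤ) : ZMod N) = 0
    push_cast
    simp
  · rw [eq_mul_inv_iff_mul_eq]
    apply Matrix.GeneralLinearGroup.ext
    intro i j
    simp only [Matrix.GeneralLinearGroup.coe_mul, mapGL_coe_matrix, val_heckeDiagMatrix hp,
      Matrix.mul_apply, Fin.sum_univ_two]
    fin_cases i <;> fin_cases j <;>
      simp [γ', hc'', Matrix.SpecialLinearGroup.map_apply_coe] <;> ring

/-- The cusp form `f - β f(p z)` of level `N p` and its `q`-expansion. -/
theorem pstab_exists_form {N : ℕ} {p : ℕ} (hp : p ≠ 0)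
    (f : CuspForm (Gamma0 N) 2) (β : ℂ) :
    ∃ g : CuspForm (Gamma0 (N * p)) 2, ∀ n : ℕ,
      ModularFormClass.qCoeff g n = ModularFormClass.qCoeff f n
        - β * (if p ∣ n then ModularFormClass.qCoeff f (n / p) else 0) := by
  have hle : ((Gamma0 (N * p)).map (mapGL ℝ)) ≤ ((Gamma0 N).map (mapGL ℝ)) := by
    apply Subgroup.map_mono
    intro γ hγ
    rw [Gamma0_mem] at hγ ⊢
    have h1 : ((N * p : ℕ) : ℤ) ∣ γ 1 0 := (ZMod.intCast_zmod_eq_zero_iff_dvd _ _).mp hγ
    have h2 : ((N : ℕ) : ℤ) ∣ γ 1 0 := by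
      refine dvd_trans ?_ h1
      exact_mod_cast dvd_mul_right N p
    exact (ZMod.intCast_zmod_eq_zero_iff_dvd _ _).mpr h2
  let g₁ : CuspForm (Gamma0 (N * p)) 2 := pstabRestrict hle f
  let g₂ : CuspForm (Gamma0 (N * p)) 2 :=
    pstabRestrict (pstab_le N hp) (CuspForm.translate f (heckeDiagMatrix p))
  have hg₂ : (g₂ : ℍ → ℂ) = (p : ℂ) • dil p (f : ℍ → ℂ) := by
    funext τ
    show ((f : ℍ → ℂ) ∣[(2 : ℤ)] heckeDiagMatrix p) τ = _
    rw [slash_heckeDiagMatrix_apply 2 hp]
    simp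
  refine ⟨g₁ - (β / p) • g₂, fun n => ?_⟩
  have hp' : (p : ℂ) ≠ 0 := by exact_mod_cast hp
  have hcoe : ((g₁ - (β / p) • g₂ : CuspForm (Gamma0 (N * p)) 2) : ℍ → ℂ)
      = (f : ℍ → ℂ) + -(β • dil p (f : ℍ → ℂ)) := by
    funext τ
    have h2 := congrFun hg₂ τ
    simp only [CuspForm.coe_sub, Pi.sub_apply, Pi.add_apply, Pi.neg_apply, Pi.smul_apply,
      smul_eq_mul] at h2 ⊢
    show g₁ τ - ((β / p) • g₂) τ = _
    have : ((β / p) • g₂) τ = (β / p) * g₂ τ := rfl
    rw [this, h2]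
    show f τ - _ = _
    field_simp
    ring
  have hgood : IsGood (f : ℍ → ℂ) :=
    isGood_of_modularFormClass (Fermat.Agent.S23.one_mem_strictPeriods_G0 N) f
  have hd : IsGood (dil p (f : ℍ → ℂ)) := isGood_dil hp hgood
  have hqf : Fermat.Agent.S23.QA (f : ℍ → ℂ) := hgood.analyticAt
  have hqd : Fermat.Agent.S23.QA (dil p (f : ℍ → ℂ)) := hd.analyticAt
  unfold ModularFormClass.qCoeff
  rw [hcoe, Fermat.Agent.S23.QA.qExpansion_add hqf (hqd.smul β).neg,
    Fermat.Agent.S23.QA.qExpansion_neg (hqd.smul β), Fermat.Agent.S23.QA.qExpansion_smul β hqd]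
  simp only [map_add, map_neg, PowerSeries.coeff_smul, smul_eq_mul]
  rw [coeff_dil hp hgood]
  ring

end Analytic

/-- (E2) `p`-stabilisation: a normalised eigenform of level `N` prime to `p` gives a normalised
eigenform of level `N p` with the same `a_ℓ`, `ℓ ≠ p`.
(`g(z) = f(z) - β f(p z)`, `β` a root of `X² - a_p X + p`; `a_n(g) = a_n(f) - β a_{n/p}(f)`.) -/
theorem exists_pStabilisation {N : ℕ} [NeZero N] {p : ℕ} (hp : p.Prime) (hpN : ¬ p ∣ N)
    (f : CuspForm (CongruenceSubgroup.Gamma0 N) 2) (hf : f.IsNormalizedEigenform) :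
    ∃ g : CuspForm (CongruenceSubgroup.Gamma0 (N * p)) 2, g.IsNormalizedEigenform ∧
      ∀ ℓ : ℕ, ℓ.Prime → ℓ ≠ p → ModularFormClass.qCoeff g ℓ = ModularFormClass.qCoeff f ℓ := by
  -- a root `β` of `X² - a_p X + p`
  obtain ⟨β, hβ⟩ : ∃ β : ℂ, β * β - ModularFormClass.qCoeff f p * β + p = 0 := by
    obtain ⟨s, hs⟩ := IsAlgClosed.exists_eq_mul_self
      (discrim (1 : ℂ) (-ModularFormClass.qCoeff f p) (p : ℂ))
    obtain ⟨x, hx⟩ := exists_quadratic_eq_zero (one_ne_zero) ⟨s, hs⟩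
    exact ⟨x, by linear_combination hx⟩
  obtain ⟨g, hg⟩ := pstab_exists_form hp.ne_zero f β
  obtain ⟨h1, h2, h3, h4, h5⟩ := pstab_arith hp hpN (fun n => ModularFormClass.qCoeff f n) β hβ
    hf.qCoeff_one hf.qCoeff_mul_of_coprime hf.qCoeff_prime_pow_of_not_dvd
    hf.qCoeff_prime_pow_of_dvd (fun n => ModularFormClass.qCoeff g n) hg
  exact ⟨g, ⟨h1, h2, h3, h4⟩, h5⟩

end Fermat.Agent.S59
end MergeWrap_S59_Endgame_PStab

section MergeWrap_S58_Stab -- from S58/Stab.lean

/-!
# S58, leaf H3 (helper38): stabilisation of a normalised eigenform up to a squarefree level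

`exists_stab_of_dvd`: a normalised eigenform of level `M` gives a normalised eigenform of every
squarefree level `R` with `M ∣ R`, with the same `a_ℓ` for all primes `ℓ ∤ R`
(iterate `Fermat.Agent.S59.exists_pStabilisation` over the primes of `R / M`).
-/

set_option autoImplicit false
set_option linter.style.haveILetI false

namespace Fermat.Agent.S58

open CuspForm

theorem exists_stab_of_eq_mul (d : ℕ) : ∀ (M R : ℕ) [NeZero M], Squarefree R → R = M * d →
    ∀ (f : CuspForm (CongruenceSubgroup.Gamma0 M) 2), f.IsNormalizedEigenform →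
    ∃ g : CuspForm (CongruenceSubgroup.Gamma0 R) 2, g.IsNormalizedEigenform ∧
      ∀ ℓ : ℕ, ℓ.Prime → ¬ ℓ ∣ R → ModularFormClass.qCoeff g ℓ = ModularFormClass.qCoeff f ℓ := by
  induction d using Nat.strong_induction_on with
  | _ d ih =>
    intro M R _ hR hRM f hf
    by_cases hd1 : d = 1
    · subst hd1
      rw [mul_one] at hRM
      subst hRM
      exact ⟨f, hf, fun _ _ _ => rfl⟩
    · have hR0 : R ≠ 0 := hR.ne_zero
      have hd0 : d ≠ 0 := by
        rintro rfl
        rw [mul_zero] at hRM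
        exact hR0 hRM
      obtain ⟨q, hq, hqd⟩ := Nat.exists_prime_and_dvd hd1
      obtain ⟨d', rfl⟩ := hqd
      have hd'0 : d' ≠ 0 := fun h => hd0 (by rw [h, mul_zero])
      have hqM : ¬ q ∣ M := by
        intro hqM
        obtain ⟨M', rfl⟩ := hqM
        have hsq : q * q ∣ R := ⟨M' * d', by rw [hRM]; ring⟩
        exact hq.one_lt.ne' (Nat.isUnit_iff.mp (hR q hsq))
      obtain ⟨f', hf', hff'⟩ := Fermat.Agent.S59.exists_pStabilisation hq hqM f hf
      haveI : NeZero (M * q) := ⟨Nat.mul_ne_zero (NeZero.ne M) hq.ne_zero⟩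
      have hlt : d' < q * d' := by
        have := hq.one_lt
        nlinarith [Nat.pos_of_ne_zero hd'0]
      obtain ⟨g, hg, hgf⟩ := ih d' hlt (M * q) R hR (by rw [hRM]; ring) f' hf'
      refine ⟨g, hg, fun ℓ hℓ hℓR => ?_⟩
      have hℓq : ℓ ≠ q := by
        rintro rfl
        exact hℓR ⟨M * d', by rw [hRM]; ring⟩
      rw [hgf ℓ hℓ hℓR, hff' ℓ hℓ hℓq]

/-- **Leaf H3**: stabilisation up to a squarefree level. -/
theorem exists_stab_of_dvd {M R : ℕ} [NeZero M] (hR : Squarefree R) (hMR : M ∣ R)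
    (f : CuspForm (CongruenceSubgroup.Gamma0 M) 2) (hf : f.IsNormalizedEigenform) :
    ∃ g : CuspForm (CongruenceSubgroup.Gamma0 R) 2, g.IsNormalizedEigenform ∧
      ∀ ℓ : ℕ, ℓ.Prime → ¬ ℓ ∣ R → ModularFormClass.qCoeff g ℓ = ModularFormClass.qCoeff f ℓ := by
  obtain ⟨d, hd⟩ := hMR
  exact exists_stab_of_eq_mul d M R hR hd f hf

end Fermat.Agent.S58
end MergeWrap_S58_Stab

section MergeWrap_S58_Reduction -- from S58/Reduction.lean

/-!
# S58 (conductor-level matching) from the statement of S36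

`Fermat.Agent.S58.s58_of_s36 : S36Statement → S58Statement`.

Route (`NOTES/blueprint-S58.md`): from the eigenform `g₀` of level `N` pass to a newform `h` of
level `M ∣ N` with the same eigenvalues away from `N` (`Descent.lean`); compare the `lam`-adic
representations attached to `h` (S35, S36) with the Tate module of `W` (`Compare.lean`):

* (ALL) `a_ℓ(h) = a_ℓ(W)` for every good prime `ℓ ∤ M`;
* (SQF) `M` is squarefree: at `q² ∥ M` S36 (at `lam = p`) gives a representation which is not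
  unipotent on inertia at `q`, but the Tate module of a semistable curve is;
* (BAD) every prime `q ∣ M` is bad for `W`: at `q ∥ M` S35 gives `a_q(W) = ±(q + 1)`, which is
  impossible (`ApBound.lean`, helper38);

hence `M ∣ rad Δ`, and `h` is stabilised up to level `rad Δ` (`Stab.lean`, helper38).
-/

set_option autoImplicit false
set_option linter.style.haveILetI false
set_option linter.unusedSectionVars false

noncomputable section

namespace Fermat.Agent.S58

open Polynomial IsLocalRing CuspForm ModularFormClass CongruenceSubgroup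
  Fermat.Agent.S35SMO

local notation "GQ" => (AlgebraicClosure ℚ ≃ₐ[ℚ] AlgebraicClosure ℚ)
local notation "Qbar" => AlgebraicClosure ℚ

/-- The data shared by all steps: a normalised eigenform `h` of level `M ∣ N` whose eigenvalues
at the primes `ℓ ∤ N` are those of `W`; all bad primes of `W` divide `N`. -/
structure Ctx (W : WeierstrassCurve ℤ) (N M : ℕ) (h : CuspForm (Gamma0 M) 2) : Prop where
  hΔ : W.Δ ≠ 0
  hN0 : N ≠ 0
  hMN : M ∣ N
  hbad : ∀ ℓ : ℕ, ℓ.Prime → (ℓ : ℤ) ∣ W.Δ → ℓ ∣ N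
  hh : h.IsNormalizedEigenform
  hag : ∀ ℓ : ℕ, ℓ.Prime → ¬ ℓ ∣ N → qCoeff h ℓ = (W.apOfModel ℓ : ℂ)

variable {W : WeierstrassCurve ℤ} {N M : ℕ} [NeZero M] {h : CuspForm (Gamma0 M) 2}

theorem Ctx.not_dvd_of_not_mem (c : Ctx W N M h) {lam ℓ : ℕ} (hℓ : ℓ.Prime)
    (hℓT : ℓ ∉ insert lam N.primeFactors) : ℓ ≠ lam ∧ ¬ ℓ ∣ N := by
  rw [Finset.mem_insert, not_or] at hℓT
  exact ⟨hℓT.1, fun hd => hℓT.2 (Nat.mem_primeFactors.mpr ⟨hℓ, hd, c.hN0⟩)⟩

theorem Ctx.mem_of_dvd (_c : Ctx W N M h) (lam : ℕ) {q : ℕ} (hq : q.Prime) (hqM : q ∣ M) :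
    q ∈ insert lam M.primeFactors :=
  Finset.mem_insert_of_mem (Nat.mem_primeFactors.mpr ⟨hq, hqM, NeZero.ne M⟩)

/-- An attached representation satisfies the hypothesis of the comparison lemmas. -/
theorem Ctx.compare_hyp (c : Ctx W N M h) (lam : ℕ)
    {O' O'' : Type} [CommRing O'] [CommRing O''] [IsLocalRing O''] [Algebra O' O'']
    (iota : (eigenChar c.hh (↑(insert lam M.primeFactors) : Set ℕ)).range →+* O')
    (ρ : GaloisRepAdic O'')
    (hatt : ∀ (ℓ : ℕ) (hℓ : ℓ.Prime) (_hℓlam : ℓ ≠ lam) (hℓM : ¬ ℓ ∣ M)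
      (hℓS : ℓ ∉ (↑(insert lam M.primeFactors) : Set ℕ)),
      ∀ A : ValuationSubring Qbar, A.LiesOverPrime ℓ → ∀ σ : GQ, A.IsFrobeniusAt σ ℓ →
        LinearMap.charpoly (ρ.ρ σ) =
          X ^ 2 - C (algebraMap O' O'' ((iota.comp (eigenChar c.hh _).rangeRestrict)
            (heckeAlgebra.T hℓ hℓM hℓS))) * X + C ((ℓ : O''))) :
    ∀ ℓ : ℕ, ℓ.Prime → ℓ ∉ insert lam N.primeFactors → W.IsGoodPrimeFor ℓ ∧ ℓ ≠ lam ∧
      ∀ A : ValuationSubring Qbar, A.LiesOverPrime ℓ → ∀ σ : GQ, A.IsFrobeniusAt σ ℓ →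
        LinearMap.charpoly (ρ.ρ σ) =
          X ^ 2 - C (((W.apOfModel ℓ : ℤ) : O'')) * X + C ((ℓ : O'')) := by
  intro ℓ hℓ hℓT
  obtain ⟨hℓlam, hℓN⟩ := c.not_dvd_of_not_mem hℓ hℓT
  have hℓM : ¬ ℓ ∣ M := fun hd => hℓN (hd.trans c.hMN)
  have hℓS : ℓ ∉ (↑(insert lam M.primeFactors) : Set ℕ) := by
    rw [Finset.mem_coe, Finset.mem_insert, not_or]
    exact ⟨hℓlam, fun hm => hℓM (Nat.mem_primeFactors.mp hm).2.1⟩
  refine ⟨fun hd => hℓN (c.hbad ℓ hℓ hd), hℓlam, fun A hA σ hσ => ?_⟩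
  rw [hatt ℓ hℓ hℓlam hℓM hℓS A hA σ hσ,
    attached_coeff_eq _ iota _ (W.apOfModel ℓ) ((eigenChar_T c.hh hℓ hℓM hℓS).trans
      (c.hag ℓ hℓ hℓN))]

/-- `lam ∈ 𝔪` is inherited along a local homomorphism. -/
theorem natCast_mem_of_isLocalHom {O' O'' : Type} [CommRing O'] [IsLocalRing O'] [CommRing O'']
    [IsLocalRing O''] [Algebra O' O''] [IsLocalHom (algebraMap O' O'')] {lam : ℕ}
    (h : (lam : O') ∈ maximalIdeal O') : (lam : O'') ∈ maximalIdeal O'' := by
  have e : (lam : O'') = algebraMap O' O'' (lam : O') := by rw [map_natCast]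
  rw [e, mem_maximalIdeal, map_mem_nonunits_iff]
  exact h

theorem finite_range_eigenChar' {h : CuspForm (Gamma0 M) 2} (hh : h.IsNormalizedEigenform)
    (S : Set ℕ) : Module.Finite ℤ (eigenChar hh S).range := by
  haveI : Module.Finite ℤ (heckeAlgebra M 2 S) := Fermat.Agent.S22.result M 2 S
  exact Module.Finite.of_surjective
    ((eigenChar hh S).rangeRestrict.toAddMonoidHom.toIntLinearMap)
    (eigenChar hh S).rangeRestrict_surjective

/-- an auxiliary prime different from `q` -/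
theorem exists_prime_ne (q : ℕ) : ∃ lam : ℕ, lam.Prime ∧ q ≠ lam := by
  by_cases h2 : q = 2
  · exact ⟨3, Nat.prime_three, by omega⟩
  · exact ⟨2, Nat.prime_two, h2⟩

/-- **(ALL)** `a_ℓ(h) = a_ℓ(W)` at every good prime `ℓ ∤ M`. -/
theorem Ctx.qCoeff_eq_of_good (c : Ctx W N M h) (hnew : h.IsNewform) {ℓ : ℕ} (hℓ : ℓ.Prime)
    (hℓM : ¬ ℓ ∣ M) (hgood : W.IsGoodPrimeFor ℓ) : qCoeff h ℓ = (W.apOfModel ℓ : ℂ) := by
  classical
  obtain ⟨lam, hlam, hℓlam⟩ := exists_prime_ne ℓ
  haveI : Fact lam.Prime := ⟨hlam⟩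
  set S : Finset ℕ := insert lam M.primeFactors with hS
  haveI := finite_range_eigenChar' c.hh (↑S : Set ℕ)
  obtain ⟨O', j1, j2, j3, j4, j5, j6, hlamO', ι, hι⟩ :=
    exists_dvr_point (eigenChar c.hh (↑S : Set ℕ)).range lam hlam
  obtain ⟨O'', i1, i2, i3, i4, i5, i6, i7, i8, i9, hinj, ρ, hρ, -⟩ :=
    Fermat.Agent.S35.result hnew lam S O' hlamO' (eigenChar c.hh (↑S : Set ℕ))
      (fun ℓ hℓ hℓM hℓS => eigenChar_T c.hh hℓ hℓM hℓS) ι (Finset.mem_insert_self _ _)
      (fun q hq hqM => c.mem_of_dvd lam hq hqM)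
  have hlamO'' : (lam : O'') ∈ maximalIdeal O'' := natCast_mem_of_isLocalHom hlamO'
  have hcmp := c.compare_hyp lam ι ρ (fun ℓ hℓ _ hℓM hℓS => hρ ℓ hℓ hℓM hℓS)
  obtain ⟨A, σ, hA, hσ⟩ := Fermat.Agent.FrobExists.exists_frobenius ℓ hℓ
  have hℓS : ℓ ∉ (↑S : Set ℕ) := by
    rw [Finset.mem_coe, hS, Finset.mem_insert, not_or]
    exact ⟨hℓlam, fun hm => hℓM (Nat.mem_primeFactors.mp hm).2.1⟩
  have e1 := trace_eq_of_charpoly_eq ρ.finrank_eq _ _ _ (hρ ℓ hℓ hℓM hℓS A hA σ hσ)
  have e2 := trace_eq_of_charpoly_eq ρ.finrank_eq _ _ _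
    (charpoly_frobenius_of_compare c.hΔ hlamO'' ρ _ hcmp hℓ hℓlam hgood A hA σ hσ)
  have e3 : algebraMap O' O'' ((ι.comp (eigenChar c.hh (↑S : Set ℕ)).rangeRestrict)
      (heckeAlgebra.T hℓ hℓM hℓS)) =
      algebraMap O' O'' (ι ((W.apOfModel ℓ : ℤ) : (eigenChar c.hh (↑S : Set ℕ)).range)) := by
    rw [← e1, e2, map_intCast, map_intCast]
  have e4 := hι (hinj e3)
  have e5 := congrArg (Subtype.val) e4
  rw [RingHom.coe_rangeRestrict, eigenChar_T c.hh hℓ hℓM hℓS] at e5
  rw [e5]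
  simp

/-- **(SQF)** the level of the newform is squarefree. -/
theorem Ctx.squarefree (c : Ctx W N M h) (hnew : h.IsNewform) (h36 : S36Statement)
    (hss : W.IsSemistableModel) (p : ℕ) [Fact p.Prime] (hp2 : p ≠ 2)
    (hirr : W.ModRepIsIrreducible p) (hp2N : ¬ p ^ 2 ∣ N)
    (hN3 : ∀ q : ℕ, q.Prime → ¬ q ^ 3 ∣ N) : Squarefree M := by
  classical
  rw [Nat.squarefree_iff_prime_squarefree]
  intro q hq hqq
  have hM0 : M ≠ 0 := NeZero.ne M
  have hq2 : q ^ 2 ∣ M := by rwa [pow_two]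
  have hqp : q ≠ p := by
    rintro rfl
    exact hp2N (hq2.trans c.hMN)
  have hfac : M.factorization q = 2 := by
    apply le_antisymm
    · by_contra hlt
      have hlt' : 3 ≤ M.factorization q := by omega
      exact hN3 q hq (((hq.pow_dvd_iff_le_factorization hM0).mpr hlt').trans c.hMN)
    · exact (hq.pow_dvd_iff_le_factorization hM0).mp hq2
  have hpP : p.Prime := Fact.out
  set S : Finset ℕ := insert p M.primeFactors with hS
  haveI := finite_range_eigenChar' c.hh (↑S : Set ℕ)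
  obtain ⟨O', j1, j2, j3, j4, j5, j6, hpO', ι, hι⟩ :=
    exists_dvr_point (eigenChar c.hh (↑S : Set ℕ)).range p hpP
  obtain ⟨O'', i1, i2, i3, i4, i5, i6, i7, i8, i9, hinj, ρ, hρ, hnot⟩ :=
    h36 hnew p S O' hpO' hp2 (eigenChar c.hh (↑S : Set ℕ))
      (fun ℓ hℓ hℓM hℓS => eigenChar_T c.hh hℓ hℓM hℓS) ι (Finset.mem_insert_self _ _)
      (fun q hq hqM => c.mem_of_dvd p hq hqM)
      (fun O'' _ _ _ _ _ _ _ _ _ _ ρ hatt => by
        have hpO'' : (p : O'') ∈ maximalIdeal O'' := natCast_mem_of_isLocalHom hpO'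
        have hcmp := c.compare_hyp p ι ρ hatt
        exact ⟨residual_isAbsolutelyIrreducible_of_compare c.hΔ hpO'' ρ _ hcmp hp2 hirr,
          residual_isOdd_of_compare c.hΔ hpO'' ρ _ hcmp hp2⟩)
  have hpO'' : (p : O'') ∈ maximalIdeal O'' := natCast_mem_of_isLocalHom hpO'
  have hcmp := c.compare_hyp p ι ρ (fun ℓ hℓ _ hℓM hℓS => hρ ℓ hℓ hℓM hℓS)
  exact hnot q hq hqp hfac
    (isUnipotentOnInertiaAt_of_compare c.hΔ hpO'' ρ _ hcmp hss hp2 hq hqp)

/-- **(BAD)** every prime dividing the level of the newform is a bad prime of `W`. -/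
theorem Ctx.bad_of_dvd (c : Ctx W N M h) (hnew : h.IsNewform) (hsq : Squarefree M)
    {q : ℕ} (hq : q.Prime) (hqM : q ∣ M) : (q : ℤ) ∣ W.Δ := by
  classical
  by_contra hgood
  obtain ⟨lam, hlam, hqlam⟩ := exists_prime_ne q
  haveI : Fact lam.Prime := ⟨hlam⟩
  haveI : Fact q.Prime := ⟨hq⟩
  set S : Finset ℕ := insert lam M.primeFactors with hS
  haveI := finite_range_eigenChar' c.hh (↑S : Set ℕ)
  obtain ⟨O', j1, j2, j3, j4, j5, j6, hlamO', ι, hι⟩ :=
    exists_dvr_point (eigenChar c.hh (↑S : Set ℕ)).range lam hlam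
  obtain ⟨O'', i1, i2, i3, i4, i5, i6, i7, i8, i9, hinj, ρ, hρ, hρq⟩ :=
    Fermat.Agent.S35.result hnew lam S O' hlamO' (eigenChar c.hh (↑S : Set ℕ))
      (fun ℓ hℓ hℓM hℓS => eigenChar_T c.hh hℓ hℓM hℓS) ι (Finset.mem_insert_self _ _)
      (fun q hq hqM => c.mem_of_dvd lam hq hqM)
  have hlamO'' : (lam : O'') ∈ maximalIdeal O'' := natCast_mem_of_isLocalHom hlamO'
  have hcmp := c.compare_hyp lam ι ρ (fun ℓ hℓ _ hℓM hℓS => hρ ℓ hℓ hℓM hℓS)
  obtain ⟨A, σ, hA, hσ⟩ := Fermat.Agent.FrobExists.exists_frobenius q hq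
  have hq2 : ¬ q ^ 2 ∣ M := by
    intro hd
    rw [pow_two] at hd
    exact (Nat.squarefree_iff_prime_squarefree.mp hsq) q hq hd
  have e2 := trace_eq_of_charpoly_eq ρ.finrank_eq _ _ _
    (charpoly_frobenius_of_compare c.hΔ hlamO'' ρ _ hcmp hq hqlam hgood A hA σ hσ)
  obtain ⟨hne1, hne2⟩ := apOfModel_ne_add_one W q
  rcases hρq q hq hqlam hqM hq2 A hA σ hσ with h1 | h1
  · have e1 := trace_eq_of_charpoly_eq ρ.finrank_eq _ _ _ h1
    rw [e2] at e1
    apply hne1
    have : ((W.apOfModel q : ℤ) : O'') = (((q : ℤ) + 1 : ℤ) : O'') := by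
      rw [e1]; push_cast; ring
    exact Int.cast_injective this
  · have h1' : LinearMap.charpoly (ρ.ρ σ) =
        X ^ 2 - C (-((q : O'') + 1)) * X + C ((q : O'')) := by
      rw [h1, map_neg]; ring
    have e1 := trace_eq_of_charpoly_eq ρ.finrank_eq _ _ _ h1'
    rw [e2] at e1
    apply hne2
    have : ((W.apOfModel q : ℤ) : O'') = ((-((q : ℤ) + 1) : ℤ) : O'') := by
      rw [e1]; push_cast; ring
    exact Int.cast_injective this

/-- **S58 from S36.** -/
theorem s58_of_s36 (h36 : S36Statement) : S58Statement := by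
  classical
  intro W hss N p _ hp2 hirr hp2N hN hbad hN3
  -- `N ≠ 0`, `Δ ≠ 0`
  have hN0 : N ≠ 0 := by
    rintro rfl
    exact hN3 2 Nat.prime_two (dvd_zero _)
  have hΔ : W.Δ ≠ 0 := by
    intro h0
    obtain ⟨ℓ, hℓN, hℓ⟩ := Nat.exists_infinite_primes (N + 1)
    have := Nat.le_of_dvd (Nat.pos_of_ne_zero hN0) (hbad ℓ hℓ (by rw [h0]; exact dvd_zero _))
    omega
  obtain ⟨g₀, hg₀, hag₀⟩ := hN
  obtain ⟨M, hMN, h, hnew, hag⟩ := exists_newform_dvd hN0 g₀ hg₀
  haveI : NeZero M := ⟨fun h0 => hN0 (Nat.eq_zero_of_zero_dvd (h0 ▸ hMN))⟩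
  have c : Ctx W N M h :=
    { hΔ := hΔ, hN0 := hN0, hMN := hMN, hbad := hbad, hh := hnew.1
      hag := fun ℓ hℓ hℓN => by
        rw [hag ℓ hℓ hℓN]
        exact hag₀ ℓ hℓ (fun hd => hℓN (hbad ℓ hℓ hd)) hℓN }
  have hsq : Squarefree M := c.squarefree hnew h36 hss p hp2 hirr hp2N hN3
  -- `M ∣ rad Δ`
  have hR0 : W.conductorLevel ≠ 0 := W.conductorLevel_pos.ne'
  have hMR : M ∣ W.conductorLevel := by
    rw [← Nat.factorization_le_iff_dvd (NeZero.ne M) hR0]
    intro q
    by_cases hq : q.Prime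
    · by_cases hqM : q ∣ M
      · have h1 : M.factorization q ≤ 1 := (Nat.squarefree_iff_factorization_le_one
          (NeZero.ne M)).mp hsq q
        have h2 : q ∣ W.conductorLevel :=
          (W.prime_dvd_conductorLevel_iff hΔ hq).mpr (c.bad_of_dvd hnew hsq hq hqM)
        have h3 : 1 ≤ W.conductorLevel.factorization q :=
          (hq.dvd_iff_one_le_factorization hR0).mp h2
        exact h1.trans h3
      · rw [Nat.factorization_eq_zero_of_not_dvd hqM]
        exact Nat.zero_le _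
    · rw [Nat.factorization_eq_zero_of_not_prime _ hq]
      exact Nat.zero_le _
  obtain ⟨g, hg, hgh⟩ := exists_stab_of_dvd W.squarefree_conductorLevel hMR h hnew.1
  refine ⟨g, hg, fun ℓ hℓ hgood hℓR => ?_⟩
  rw [hgh ℓ hℓ hℓR]
  exact c.qCoeff_eq_of_good hnew hℓ (fun hd => hℓR (hd.trans hMR)) hgood

end Fermat.Agent.S58
end
end MergeWrap_S58_Reduction
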